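import Fermat.Agent.Carayol.Model.VertDefs
import Fermat.Agent.CurveRed.Residue

/-!
# The component at infinity: constants, translations and residues
-/

set_option autoImplicit false
set_option linter.unusedSectionVars false
set_option linter.style.haveILetI false

noncomputable section

namespace FA.Carayol

open UpperHalfPlane hiding I
open CongruenceSubgroup HahnSeries ModularCurve FA.Level FA.ModField FA.JTorsion FA.Mazur.Wp
open scoped MatrixGroups

local notation "Qb" => AlgebraicClosure ℚ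

/-! ### Near one -/

section near

variable {F : Type*} [Field F] {W : ValuationSubring F}

theorem near_val_one {x : F} (hx : W.valuation (x - 1) < 1) : W.valuation x = 1 := by
  have := Valuation.map_add_eq_of_lt_left W.valuation (x := (1 : F)) (y := x - 1)
    (by rw [map_one]; exact hx)
  rwa [add_sub_cancel, map_one] at this

theorem near_ne_zero {x : F} (hx : W.valuation (x - 1) < 1) : x ≠ 0 := fun h => by
  have := near_val_one hx
  rw [h, map_zero] at this
  exact zero_ne_one this

theorem near_one_one : W.valuation ((1 : F) - 1) < 1 := by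
  rw [sub_self, map_zero]; exact zero_lt_one

theorem near_mul {x y : F} (hx : W.valuation (x - 1) < 1) (hy : W.valuation (y - 1) < 1) :
    W.valuation (x * y - 1) < 1 := by
  rw [show x * y - 1 = (x - 1) * y + (y - 1) by ring]
  refine Valuation.map_add_lt _ ?_ hy
  rw [map_mul, near_val_one hy, mul_one]
  exact hx

theorem near_inv {x : F} (hx : W.valuation (x - 1) < 1) : W.valuation (x⁻¹ - 1) < 1 := by
  have h0 := near_ne_zero hx
  rw [show x⁻¹ - 1 = -(x - 1) * x⁻¹ by field_simp; ring, map_mul, Valuation.map_neg, map_inv₀,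
    near_val_one hx, inv_one, mul_one]
  exact hx

theorem near_pow {x : F} (hx : W.valuation (x - 1) < 1) (j : ℕ) :
    W.valuation (x ^ j - 1) < 1 := by
  induction j with
  | zero => rw [pow_zero]; exact near_one_one
  | succ j ih => rw [pow_succ]; exact near_mul ih hx

theorem near_div {x y : F} (hy : W.valuation y = 1) (h : W.valuation (x - y) < 1) :
    W.valuation (x / y - 1) < 1 := by
  have hy0 : y ≠ 0 := fun h0 => by rw [h0, map_zero] at hy; exact zero_ne_one hy
  rw [show x / y - 1 = (x - y) / y by field_simp, map_div₀, hy, div_one]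
  exact h

variable (W) in
/-- Up to `n`-th powers near one. -/
def IsPow (n : ℕ) (x : F) : Prop := ∃ y : F, W.valuation (x / y ^ n - 1) < 1

theorem IsPow.mul {n : ℕ} {x y : F} (hx : IsPow W n x) (hy : IsPow W n y) : IsPow W n (x * y) := by
  obtain ⟨a, ha⟩ := hx
  obtain ⟨b, hb⟩ := hy
  refine ⟨a * b, ?_⟩
  rw [mul_pow, mul_div_mul_comm]
  exact near_mul ha hb

theorem IsPow.inv {n : ℕ} {x : F} (hx : IsPow W n x) : IsPow W n x⁻¹ := by
  obtain ⟨a, ha⟩ := hx
  refine ⟨a⁻¹, ?_⟩
  rw [inv_pow, inv_div_inv, ← inv_div]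
  exact near_inv ha

theorem IsPow.of_pow (n : ℕ) {x : F} (hx : x ≠ 0) : IsPow W n (x ^ n) :=
  ⟨x, by rw [div_self (pow_ne_zero n hx)]; exact near_one_one⟩

theorem IsPow.of_near {n : ℕ} {x : F} (hx : W.valuation (x - 1) < 1) : IsPow W n x :=
  ⟨1, by rwa [one_pow, div_one]⟩

end near

/-! ### The integral constants -/

variable [Algebra Qb ℂ] {A : ValuationSubring Qb} {q N : ℕ} [NeZero N]

variable (A q) in
/-- The integral constants. -/
abbrev OL : Subring Qb := baseO A (constL A q).toSubfield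

theorem coe_baseK (a : (OL A q)) : (baseK A q a : ℂ) = algebraMap Qb ℂ (a : Qb) := rfl

theorem baseK_inj : Function.Injective (baseK A q) := fun a b h =>
  Subtype.ext ((algebraMap Qb ℂ).injective (congrArg Subtype.val h))

theorem cF_inj : Function.Injective (cF A q N) :=
  toFl_injective.comp (((rC (N := N) (K := constK A q))).injective.comp baseK_inj)

theorem resO_eq_zero_iff (a : (OL A q)) : resO A q a = 0 ↔ A.valuation (a : Qb) < 1 :=
  FA.CurveRed.residue_eq_zero_iff A ⟨(a : Qb), a.2.1⟩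

theorem isUnit_of_resO {a : (OL A q)} (h : resO A q a ≠ 0) : IsUnit a := by
  have h1 : A.valuation (a : Qb) = 1 :=
    le_antisymm ((A.valuation_le_one_iff _).2 a.2.1) (not_lt.1 fun hlt =>
      h ((resO_eq_zero_iff a).2 hlt))
  have h0 : (a : Qb) ≠ 0 := fun h0 => by rw [h0, map_zero] at h1; exact zero_ne_one h1
  refine isUnit_iff_exists_inv.2 ⟨⟨(a : Qb)⁻¹, ?_, (constL A q).toSubfield.inv_mem a.2.2⟩,
    Subtype.ext (mul_inv_cancel₀ h0)⟩
  exact (A.valuation_le_one_iff _).1 (by rw [map_inv₀, h1, inv_one])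

theorem resO_ne_of_unit {a : (OL A q)} (h : IsUnit a) : resO A q a ≠ 0 := (h.map (resO A q)).ne_zero

variable {ϖ : (OL A q)}

theorem resO_surj (hC : ConstHyp A (constL A q).toSubfield ϖ) :
    Function.Surjective (resO A q) := fun r => by
  obtain ⟨a, rfl⟩ := IsLocalRing.residue_surjective r
  obtain ⟨b, hb⟩ := hC.residue (a : Qb) a.2
  refine ⟨b, ?_⟩
  rw [eq_comm, ← sub_eq_zero]
  show IsLocalRing.residue A a - IsLocalRing.residue A ⟨(b : Qb), b.2.1⟩ = 0
  rw [← map_sub, FA.CurveRed.residue_eq_zero_iff]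
  exact hb

theorem resO_uniformizer (hC : ConstHyp A (constL A q).toSubfield ϖ) : resO A q ϖ = 0 := by
  by_contra h
  exact hC.irreducible.not_isUnit (isUnit_of_resO h)

theorem pi_dvd_of_resO (hC : ConstHyp A (constL A q).toSubfield ϖ) {a : (OL A q)}
    (h : resO A q a = 0) : ∃ b, a = ϖ * b := by
  haveI := hC.dvr
  rcases eq_or_ne a 0 with rfl | ha
  · exact ⟨0, (mul_zero _).symm⟩
  obtain ⟨k, u, rfl⟩ := IsDiscreteValuationRing.eq_unit_mul_pow_irreducible ha hC.irreducible
  cases k with
  | zero => exact absurd h (resO_ne_of_unit (by rw [pow_zero, mul_one]; exact u.isUnit))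
  | succ k => exact ⟨(u : (OL A q)) * ϖ ^ k, by ring⟩

/-- Constants are units times powers of the uniformiser. -/
theorem exists_const_decomp (hC : ConstHyp A (constL A q).toSubfield ϖ) {c : constK A q}
    (hc : c ≠ 0) : ∃ (u : (OL A q)) (j : ℤ), IsUnit u ∧ c = baseK A q u * baseK A q ϖ ^ j := by
  haveI := hC.dvr
  obtain ⟨x, hx, hxc⟩ := c.2
  have hx0 : x ≠ 0 := fun h => hc (Subtype.ext (by rw [← hxc, h, map_zero]; rfl))
  have key : ∀ y : (OL A q), y ≠ 0 → ∃ (u : (OL A q)) (k : ℕ), IsUnit u ∧ y = u * ϖ ^ k := fun y hy => by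
    obtain ⟨k, u, h⟩ := IsDiscreteValuationRing.eq_unit_mul_pow_irreducible hy hC.irreducible
    exact ⟨u, k, u.isUnit, h⟩
  have hϖ : baseK A q ϖ ≠ 0 := (map_ne_zero_iff _ baseK_inj).2 hC.irreducible.ne_zero
  rcases A.mem_or_inv_mem x with h | h
  · obtain ⟨u, k, hu, he⟩ := key ⟨x, h, hx⟩ fun h0 => hx0 (congrArg Subtype.val h0)
    refine ⟨u, k, hu, Subtype.ext ?_⟩
    rw [zpow_natCast, ← map_pow, ← map_mul, coe_baseK, ← he]
    exact hxc.symm
  · obtain ⟨u, k, hu, he⟩ := key ⟨x⁻¹, h, (constL A q).toSubfield.inv_mem hx⟩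
      fun h0 => inv_ne_zero hx0 (congrArg Subtype.val h0)
    obtain ⟨v, hv⟩ := isUnit_iff_exists_inv.1 hu
    refine ⟨v, -(k : ℤ), isUnit_iff_exists_inv.2 ⟨u, by rw [mul_comm]; exact hv⟩, ?_⟩
    have h1 : c⁻¹ = baseK A q u * baseK A q ϖ ^ k := Subtype.ext (by
      rw [← map_pow, ← map_mul, coe_baseK, ← he]
      show ((c⁻¹ : constK A q) : ℂ) = algebraMap Qb ℂ x⁻¹
      rw [map_inv₀, hxc]
      rfl)
    rw [← inv_inv c, h1, mul_inv, zpow_neg, zpow_natCast]
    congr 1
    exact inv_eq_of_mul_eq_one_right (by rw [← map_mul, hv, map_one])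

/-- Residues have roots. -/
theorem exists_resO_root [IsAlgClosed Qb] (hC : ConstHyp A (constL A q).toSubfield ϖ) {n : ℕ}
    (hn : n ≠ 0) (u : (OL A q)) : ∃ w : (OL A q), resO A q w ^ n = resO A q u := by
  haveI := FA.CurveRed.isAlgClosed_residueField A
  obtain ⟨r, hr⟩ := IsAlgClosed.exists_pow_nat_eq (resO A q u) (Nat.pos_of_ne_zero hn)
  obtain ⟨w, rfl⟩ := resO_surj hC r
  exact ⟨w, hr⟩

/-- A ring homomorphism out of the constants sending small constants to small elements. -/
theorem valuation_cF {W : ValuationSubring (flN N (constK A q))}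
    (hC : ConstHyp A (constL A q).toSubfield ϖ) (hW : W.valuation (cF A q N ϖ) < 1)
    (hu : ∀ u : (OL A q), IsUnit u → W.valuation (cF A q N u) = 1) (a : (OL A q)) :
    cF A q N a ∈ W ∧ (W.valuation (cF A q N a) < 1 ↔ resO A q a = 0) := by
  by_cases h : resO A q a = 0
  · obtain ⟨b, rfl⟩ := pi_dvd_of_resO hC h
    have hb : W.valuation (cF A q N b) ≤ 1 := by
      haveI := hC.dvr
      rcases eq_or_ne b 0 with rfl | hb
      · rw [map_zero, map_zero]; exact zero_le
      obtain ⟨k, v, rfl⟩ := IsDiscreteValuationRing.eq_unit_mul_pow_irreducible hb hC.irreducible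
      rw [map_mul, map_mul, map_pow, map_pow, hu _ v.isUnit, one_mul]
      exact pow_le_one₀ zero_le hW.le
    have hlt : W.valuation (cF A q N (ϖ * b)) < 1 := by
      rw [map_mul, map_mul]
      exact lt_of_le_of_lt (mul_le_of_le_one_right' hb) hW
    exact ⟨(W.valuation_le_one_iff _).1 hlt.le, iff_of_true hlt h⟩
  · have h1 := hu a (isUnit_of_resO h)
    exact ⟨(W.valuation_le_one_iff _).1 h1.le, iff_of_false h1.not_lt h⟩

/-! ### Series -/

theorem ser_toFl (f : rN N (constK A q)) : ser (toFl f) = rSer f := ser_rMer f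

theorem ser_cF_eq (a : (OL A q)) : ser (cF A q N a) = serO A q (HahnSeries.C a) := by
  show ser (toFl (rC (baseK A q a))) = _
  rw [ser_toFl, rSer_rC, serO, HahnSeries.C_apply, HahnSeries.C_apply, coeffMap_single]

variable {W₀ : ValuationSubring (flN N (constK A q))} (hW : IsInfty A q ϖ W₀)

include hW

theorem IsInfty.cF_facts (a : (OL A q)) :
    cF A q N a ∈ W₀ ∧ (W₀.valuation (cF A q N a) < 1 ↔ resO A q a = 0) := by
  have e : ser (cF A q N a) * serO A q 1 = serO A q (HahnSeries.C a) := by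
    rw [map_one, mul_one, ser_cF_eq]
  have h1 : redO A q 1 ≠ 0 := by rw [map_one]; exact one_ne_zero
  refine ⟨(hW.mem_iff _).2 ⟨_, _, h1, e⟩, ?_⟩
  rw [hW.lt_iff _ _ _ h1 e, redO, HahnSeries.C_apply, coeffMap_single,
    HahnSeries.single_eq_zero_iff]

theorem IsInfty.cF_unit {u : (OL A q)} (hu : IsUnit u) : W₀.valuation (cF A q N u) = 1 :=
  le_antisymm ((W₀.valuation_le_one_iff _).2 (hW.cF_facts u).1)
    (not_lt.1 fun h => resO_ne_of_unit hu ((hW.cF_facts u).2.1 h))

/-- A unit constant is an `n`-th power near one. -/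
theorem IsInfty.isPow_unit [IsAlgClosed Qb] (hC : ConstHyp A (constL A q).toSubfield ϖ) {n : ℕ}
    (hn : n ≠ 0) {u : (OL A q)} (hu : IsUnit u) : IsPow W₀ n (cF A q N u) := by
  obtain ⟨w, hw⟩ := exists_resO_root hC hn u
  refine ⟨cF A q N w, near_div ?_ ?_⟩
  · rw [← map_pow]
    exact hW.cF_unit (isUnit_of_resO (by rw [map_pow, hw]; exact resO_ne_of_unit hu))
  · rw [← map_pow, ← map_sub, (hW.cF_facts _).2, map_sub, map_pow, hw, sub_self]

/-- A map of series congruent to the identity modulo the uniformiser moves nothing. -/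
theorem IsInfty.near_of_series {φ : flN N (constK A q) →+* flN N (constK A q)}
    (hφ : ∀ x a b, ser x * serO A q b = serO A q a → ∃ a' b',
      redO A q a' = redO A q a ∧ redO A q b' = redO A q b ∧ ser (φ x) * serO A q b' = serO A q a')
    {x : flN N (constK A q)} (hx : x ∈ W₀) : W₀.valuation (φ x - x) < 1 := by
  obtain ⟨a, b, hb, he⟩ := (hW.mem_iff x).1 hx
  obtain ⟨a', b', ha', hb', he'⟩ := hφ x a b he
  refine (hW.lt_iff (φ x - x) (a' * b - a * b') (b' * b) ?_ ?_).2 ?_
  · rw [map_mul, hb']; exact mul_ne_zero hb hb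
  · rw [map_sub, map_mul, map_sub, map_mul, map_mul, ← he, ← he']; ring
  · rw [map_sub, map_mul, map_mul, ha', hb', sub_self]

/-- Every element is a power of the uniformiser times a unit. -/
theorem IsInfty.exists_unit_part (hC : ConstHyp A (constL A q).toSubfield ϖ)
    {x : flN N (constK A q)} (hx : x ≠ 0) :
    ∃ (j : ℤ) (x' : flN N (constK A q)), W₀.valuation x' = 1 ∧ x = cF A q N ϖ ^ j * x' := by
  obtain ⟨j, hj⟩ := hW.scale x hx
  refine ⟨j, _, hj, ?_⟩
  rw [mul_div_cancel₀]
  exact zpow_ne_zero _ ((map_ne_zero_iff _ cF_inj).2 hC.irreducible.ne_zero)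

/-- Such a map changes classes by `n`-th powers only. -/
theorem IsInfty.isPow_ratio [IsAlgClosed Qb] (hC : ConstHyp A (constL A q).toSubfield ϖ) {n : ℕ}
    (hn : n ≠ 0) {φ : flN N (constK A q) →+* flN N (constK A q)}
    (hφ : ∀ x a b, ser x * serO A q b = serO A q a → ∃ a' b',
      redO A q a' = redO A q a ∧ redO A q b' = redO A q b ∧ ser (φ x) * serO A q b' = serO A q a')
    {u : (OL A q)} (hu : IsUnit u) (hπ : φ (cF A q N ϖ) = cF A q N u * cF A q N ϖ)
    {x : flN N (constK A q)} (hx : x ≠ 0) : IsPow W₀ n (φ x / x) := by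
  obtain ⟨j, x', hv, rfl⟩ := hW.exists_unit_part hC hx
  have hϖ : cF A q N ϖ ≠ 0 := (map_ne_zero_iff _ cF_inj).2 hC.irreducible.ne_zero
  have hx' : x' ≠ 0 := fun h0 => by rw [h0, map_zero] at hv; exact zero_ne_one hv
  have hz : ∀ i : ℤ, IsPow W₀ n (cF A q N u ^ i) := fun i => by
    have h1 : ∀ l : ℕ, IsPow W₀ n (cF A q N u ^ l) := fun l => by
      rw [← map_pow]; exact hW.isPow_unit hC hn (hu.pow l)
    obtain ⟨l, rfl | rfl⟩ := i.eq_nat_or_neg
    · rw [zpow_natCast]; exact h1 l
    · rw [zpow_neg, zpow_natCast]; exact (h1 l).inv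
  rw [map_mul, map_zpow₀, hπ, mul_zpow,
    show cF A q N u ^ j * cF A q N ϖ ^ j * φ x' / (cF A q N ϖ ^ j * x') =
      cF A q N u ^ j * (φ x' / x') by field_simp]
  exact (hz j).mul (IsPow.of_near (W := W₀) (near_div hv
    (hW.near_of_series hφ ((W₀.valuation_le_one_iff _).1 hv.le))))

omit hW

/-! ### Translations by upper unipotents -/

/-- The substitution for `T ^ k`. -/
theorem hasExp_upU (k : ℤ) {f : ℍ → ℂ} {L : LaurentSeries ℂ} (h : HasExp (qp N) f L) :
    HasExp (qp N) (fun z => f (upU k • z))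
      (twist (Units.mk0 (eta N k) (Complex.exp_ne_zero _)) L) := by
  have h' := h.comp (U := qp N) (fun z => upU k • z) 1 (Units.mk0 (eta N k) (Complex.exp_ne_zero _))
    (fun z => by
      rw [pow_one, Units.val_mk0, qp_eq, qp_eq, eta, ← Complex.exp_add]
      congr 1
      rw [show upU k = ModularGroup.T ^ k from Subtype.ext (ModularGroup.coe_T_zpow k).symm,
        ModularGroup.coe_T_zpow_smul_eq, tpi]
      ring)
  rw [qExpand_one_apply] at h'
  exact h'

theorem ser_flAct_upU (k : ℤ) (hk : eta N k ∈ constK A q) (x : flN N (constK A q)) :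
    ser (flAct (upU k) x) =
      twist (Units.mk0 (⟨eta N k, hk⟩ : constK A q)
        (fun h => Complex.exp_ne_zero _ (congrArg Subtype.val h))) (ser x) := by
  set c := Units.mk0 (⟨eta N k, hk⟩ : constK A q)
    (fun h => Complex.exp_ne_zero _ (congrArg Subtype.val h))
  have hr : ∀ f : rN N (constK A q), rSer (rAct (upU k) f) = twist c (rSer f) := fun f => by
    refine rSer_eq ?_
    show HasKExp N (constK A q) (fun z => ((f : holSub) : ℍ → ℂ) (upU k • z)) _
    unfold HasKExp
    convert hasExp_upU k (rSer_spec f) using 1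
    refine HahnSeries.ext (funext fun i => ?_)
    simp only [coeffMap_coeff, twist_coeff, map_mul, Units.val_zpow_eq_zpow_val, map_zpow₀]
    rfl
  obtain ⟨a, b, hb, he⟩ := exists_toFl_fraction x
  have h1 := congrArg (fun y => ser (flAct (upU k) y)) he
  have h2 := congrArg (fun y => twist c (ser y)) he
  simp only [map_mul, flAct_toFl, ser_toFl, hr] at h1 h2
  rw [← h2] at h1
  exact mul_right_cancel₀ (by
    rw [Ne, map_eq_zero_iff _ (twist_injective c), map_eq_zero_iff _ rSer_injective]; exact hb) h1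

/-- The translations by upper unipotents which are congruent to the identity at infinity. -/
theorem upU_series (k : ℤ) (ε : (OL A q)ˣ) (hε : resO A q (ε : (OL A q)) = 1)
    (hεk : (baseK A q (ε : (OL A q)) : ℂ) = eta N k) (x : flN N (constK A q))
    (a b : LaurentSeries (OL A q)) (he : ser x * serO A q b = serO A q a) :
    ∃ a' b', redO A q a' = redO A q a ∧ redO A q b' = redO A q b ∧
      ser (flAct (upU k) x) * serO A q b' = serO A q a' := by
  have hk : eta N k ∈ constK A q := hεk ▸ (baseK A q (ε : (OL A q))).2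
  have hu : Units.map ((resO A q).toMonoidHom) ε = 1 := Units.ext hε
  have hred : ∀ s, redO A q (twist ε s) = redO A q s := fun s => by
    refine HahnSeries.ext (funext fun i => ?_)
    simp only [redO, coeffMap_coeff, twist_coeff, map_mul]
    have h1 := congrArg Units.val (map_zpow (Units.map ((resO A q).toMonoidHom)) ε i)
    rw [hu, one_zpow, Units.coe_map, Units.val_one] at h1
    rw [show resO A q ((ε ^ i : (OL A q)ˣ) : (OL A q)) = 1 from h1, one_mul]
  refine ⟨twist ε a, twist ε b, hred a, hred b, ?_⟩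
  rw [ser_flAct_upU k hk]
  set c := Units.mk0 (⟨eta N k, hk⟩ : constK A q)
    (fun h => Complex.exp_ne_zero _ (congrArg Subtype.val h))
  have hc : Units.map ((baseK A q).toMonoidHom) ε = c := Units.ext (Subtype.ext hεk)
  have hser : ∀ s, serO A q (twist ε s) = twist c (serO A q s) := fun s => by
    refine HahnSeries.ext (funext fun i => ?_)
    simp only [serO, coeffMap_coeff, twist_coeff, map_mul, ← hc, ← map_zpow, Units.coe_map]
    rfl
  rw [hser, hser, ← map_mul, he]

/-- Roots of unity of order `q` reduce to one. -/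
theorem exists_unit_eta [hq : Fact q.Prime] (hA : A.LiesOverPrime q) (k : ℤ)
    (hroots : ∀ b : ℤ, eta N b ∈ constK A q) (hk : (N : ℤ) ∣ (q : ℤ) * k) :
    ∃ ε : (OL A q)ˣ, resO A q (ε : (OL A q)) = 1 ∧ (baseK A q (ε : (OL A q)) : ℂ) = eta N k := by
  obtain ⟨x, hxL, hx⟩ := hroots k
  have hxq : x ^ q = 1 := (algebraMap Qb ℂ).injective (by
    rw [map_pow, hx, map_one, eta, ← Complex.exp_nat_mul]
    obtain ⟨r, hr⟩ := hk
    have hr' : (q : ℂ) * k = (N : ℂ) * r := by exact_mod_cast congrArg (fun i : ℤ => (i : ℂ)) hr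
    refine Complex.exp_eq_one_iff.2 ⟨r, ?_⟩
    have hN : (N : ℂ) ≠ 0 := Nat.cast_ne_zero.2 (NeZero.ne N)
    rw [tpi]
    field_simp
    linear_combination hr')
  have hv : A.valuation x = 1 := by
    have h1 := congrArg A.valuation hxq
    rw [map_pow, map_one] at h1
    exact (pow_eq_one_iff.1 h1).resolve_right hq.out.ne_zero
  let a : (OL A q) := ⟨x, (A.valuation_le_one_iff _).1 hv.le, hxL⟩
  have hcq : (q : IsLocalRing.ResidueField A) = 0 := by
    rw [← map_natCast (IsLocalRing.residue A), FA.CurveRed.residue_eq_zero_iff]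
    exact_mod_cast (A.mem_nonunits_iff).1 hA
  haveI : CharP (IsLocalRing.ResidueField A) q := (CharP.charP_iff_prime_eq_zero hq.out).2 hcq
  have ha : resO A q a = 1 := by
    refine frobenius_inj (IsLocalRing.ResidueField A) q ?_
    simp only [frobenius_def, one_pow, ← map_pow]
    rw [show a ^ q = 1 from Subtype.ext hxq, map_one]
  exact ⟨(isUnit_of_resO (by rw [ha]; exact one_ne_zero) : IsUnit a).unit, ha, hx⟩

end FA.Carayol

end
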