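import Fermat.Agent.Carayol.Model.PtDefs
import Fermat.Agent.Carayol.Assembly.Infinity
import Fermat.Agent.Carayol.Group.Symm

/-!
# Branches at a point: values in the residue field of the constants
-/

set_option autoImplicit false
set_option linter.unusedSectionVars false
set_option linter.style.haveILetI false

noncomputable section

namespace FA.Carayol

open FA.Level FA.JTorsion FA.Mazur.Wp

local notation "Qb" => AlgebraicClosure ℚ

variable [Algebra Qb ℂ] {A : ValuationSubring Qb} {q N : ℕ} [NeZero N] {ϖ : OL A q}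
  {z : flN N (constK A q)}

variable (A q) in
/-- The chart of a point. -/
abbrev ptChart (p : Pt A q z) : Subring (flN N (constK A q)) := chartF A q (coordB A q z p.1)

theorem cF_mem_ptChart (p : Pt A q z) (a : OL A q) : cF A q N a ∈ ptChart A q p := by
  have h := (Polynomial.eval₂RingHom (cF A q N) (coordB A q z p.1)).isIntegralElem_map
    (x := Polynomial.C a)
  rw [Polynomial.coe_eval₂RingHom, Polynomial.eval₂_C] at h
  exact h

/-- The constants in a chart. -/
def cChart (p : Pt A q z) : OL A q →+* ptChart A q p :=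
  (cF A q N).codRestrict (ptChart A q p) (cF_mem_ptChart p)

theorem IsVertF.cF_unit {W : ValuationSubring (flN N (constK A q))} (hW : IsVertF A q ϖ z W)
    {u : OL A q} (hu : IsUnit u) : W.valuation (cF A q N u) = 1 := by
  have h := hW.2 (Polynomial.C u) ⟨0, by rwa [Polynomial.coeff_C_zero]⟩
  rwa [Polynomial.eval₂_C] at h

theorem IsVertF.cF_facts {W : ValuationSubring (flN N (constK A q))} (hW : IsVertF A q ϖ z W)
    (hC : ConstHyp A (constL A q).toSubfield ϖ) (a : OL A q) :
    cF A q N a ∈ W ∧ (W.valuation (cF A q N a) < 1 ↔ resO A q a = 0) :=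
  valuation_cF hC hW.1 (fun _ hu => hW.cF_unit hu) a

theorem IsVertF.coord_mem {W : ValuationSubring (flN N (constK A q))} (hW : IsVertF A q ϖ z W)
    (b : Bool) : coordB A q z b ∈ W := by
  have h := hW.2 Polynomial.X ⟨1, by rw [Polynomial.coeff_X_one]; exact isUnit_one⟩
  rw [Polynomial.eval₂_X] at h
  cases b
  · exact (W.valuation_le_one_iff _).1 h.le
  · exact (W.valuation_le_one_iff _).1 (by
      show W.valuation z⁻¹ ≤ 1
      rw [map_inv₀, h, inv_one])

theorem IsVertF.chart_le {W : ValuationSubring (flN N (constK A q))} (hW : IsVertF A q ϖ z W)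
    (hC : ConstHyp A (constL A q).toSubfield ϖ) (b : Bool) {x : flN N (constK A q)}
    (hx : x ∈ chartF A q (coordB A q z b)) : x ∈ W := by
  obtain ⟨P, hP, he⟩ := hx
  have hmem : ∀ Q : Polynomial (OL A q), Q.eval₂ (cF A q N) (coordB A q z b) ∈ W := fun Q => by
    rw [Polynomial.eval₂_eq_sum_range]
    exact sum_mem fun i _ => mul_mem (hW.cF_facts hC _).1 (pow_mem (hW.coord_mem b) i)
  let ψ : Polynomial (OL A q) →+* W :=
    (Polynomial.eval₂RingHom (cF A q N) (coordB A q z b)).codRestrict W hmem
  have hint : IsIntegral W x := ⟨P.map ψ, hP.map ψ, by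
    rw [Polynomial.eval₂_map]
    exact he⟩
  obtain ⟨y, hy⟩ := IsIntegrallyClosed.isIntegral_iff.1 hint
  exact hy ▸ y.2

/-! ### The residue at a point -/

variable {p : Pt A q z} (hC : ConstHyp A (constL A q).toSubfield ϖ) (hp : IsPtF ϖ p)
  (hL : PtLocal ϖ p)

include hC hp hL

theorem cChart_mem_iff (a : OL A q) : cChart p a ∈ p.2 ↔ resO A q a = 0 := by
  obtain ⟨x, hx, hxe⟩ := hp.2
  have hϖ : cChart p ϖ ∈ p.2 := by rwa [show cChart p ϖ = x from Subtype.ext hxe.symm]
  refine ⟨fun h => by_contra fun h0 => hp.1.ne_top ?_, fun h => ?_⟩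
  · exact Ideal.eq_top_of_isUnit_mem _ h ((isUnit_of_resO h0).map (cChart p))
  · obtain ⟨b, rfl⟩ := pi_dvd_of_resO hC h
    rw [map_mul]
    exact Ideal.mul_mem_right _ _ hϖ

theorem exists_ptRes (x : ptChart A q p) : ∃ a : OL A q, x - cChart p a ∈ p.2 := by
  obtain ⟨a, y, hy, h⟩ := hL.residue x
  exact ⟨a, by rwa [show cChart p a = y from Subtype.ext hy.symm]⟩

theorem ptResFun_eq {x : ptChart A q p} {a : OL A q} (h : x - cChart p a ∈ p.2) :
    resO A q (exists_ptRes hC hp hL x).choose = resO A q a := by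
  have h1 := (exists_ptRes hC hp hL x).choose_spec
  rw [← sub_eq_zero, ← map_sub, ← cChart_mem_iff hC hp hL, map_sub]
  have := Ideal.sub_mem _ h h1
  rwa [sub_sub_sub_cancel_left] at this

/-- The value at the point. -/
def ptRes : ptChart A q p →+* IsLocalRing.ResidueField A where
  toFun x := resO A q (exists_ptRes hC hp hL x).choose
  map_one' := by
    rw [ptResFun_eq hC hp hL (a := 1) (by rw [map_one, sub_self]; exact zero_mem _), map_one]
  map_zero' := by
    rw [ptResFun_eq hC hp hL (a := 0) (by rw [map_zero, sub_self]; exact zero_mem _), map_zero]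
  map_add' x y := by
    have hx := (exists_ptRes hC hp hL x).choose_spec
    have hy := (exists_ptRes hC hp hL y).choose_spec
    rw [ptResFun_eq hC hp hL (x := x + y) (a := (exists_ptRes hC hp hL x).choose +
      (exists_ptRes hC hp hL y).choose) (by
        rw [map_add, add_sub_add_comm]; exact add_mem hx hy), map_add]
  map_mul' x y := by
    have hx := (exists_ptRes hC hp hL x).choose_spec
    have hy := (exists_ptRes hC hp hL y).choose_spec
    rw [ptResFun_eq hC hp hL (x := x * y) (a := (exists_ptRes hC hp hL x).choose *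
      (exists_ptRes hC hp hL y).choose) ?_, map_mul]
    rw [map_mul]
    set a := cChart p (exists_ptRes hC hp hL x).choose
    set b := cChart p (exists_ptRes hC hp hL y).choose
    rw [show x * y - a * b = x * (y - b) + (x - a) * b by ring]
    exact add_mem (Ideal.mul_mem_left _ _ hy) (Ideal.mul_mem_right _ _ hx)

theorem ptRes_eq {x : ptChart A q p} {a : OL A q} (h : x - cChart p a ∈ p.2) :
    ptRes hC hp hL x = resO A q a := ptResFun_eq hC hp hL h

theorem ptRes_cChart (a : OL A q) : ptRes hC hp hL (cChart p a) = resO A q a :=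
  ptRes_eq hC hp hL (by rw [sub_self]; exact zero_mem _)

theorem ptRes_eq_zero {x : ptChart A q p} : ptRes hC hp hL x = 0 ↔ x ∈ p.2 := by
  obtain ⟨a, ha⟩ := exists_ptRes hC hp hL x
  rw [ptRes_eq hC hp hL ha, ← cChart_mem_iff hC hp hL]
  exact ⟨fun h => by simpa using add_mem ha h, fun h => by simpa using Ideal.sub_mem _ h ha⟩

theorem ptRes_congr {x y : ptChart A q p} (h : x - y ∈ p.2) :
    ptRes hC hp hL x = ptRes hC hp hL y := by
  rw [← sub_eq_zero, ← map_sub, ptRes_eq_zero hC hp hL]
  exact h

/-! ### Values on a branch -/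

variable {W : ValuationSubring (flN N (constK A q))}

theorem Thru.valuation_eq_one (hW : IsVertF A q ϖ z W) (hT : Thru p W) {c : ptChart A q p}
    (hc : c ∉ p.2) : W.valuation (c : flN N (constK A q)) = 1 :=
  le_antisymm ((W.valuation_le_one_iff _).2 (hW.chart_le hC _ c.2))
    (not_lt.1 fun h => hc (hT c h))

/-- The value on a branch, zero where it is not defined. -/
def brVal (W : ValuationSubring (flN N (constK A q))) (x : flN N (constK A q)) :
    IsLocalRing.ResidueField A :=
  letI := Classical.dec (InBr p W x)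
  if h : InBr p W x then
    ptRes hC hp hL h.2.choose / ptRes hC hp hL h.2.choose_spec.choose
  else 0

variable (hW : IsVertF A q ϖ z W) (hT : Thru p W)

include hW hT

theorem inBr_mk {x : flN N (constK A q)} {a c : ptChart A q p} (hc : c ∉ p.2)
    (h : W.valuation (x * c - (a : flN N (constK A q))) < 1) : InBr p W x := by
  refine ⟨?_, a, c, hc, h⟩
  have hv := Thru.valuation_eq_one hC hp hL hW hT hc
  have hxc : x * c ∈ W := by
    have := add_mem ((W.valuation_le_one_iff _).1 h.le) (hW.chart_le hC _ a.2)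
    rwa [sub_add_cancel] at this
  have h1 := (W.valuation_le_one_iff _).2 hxc
  rw [map_mul, hv, mul_one] at h1
  exact (W.valuation_le_one_iff _).1 h1

theorem brVal_eq {x : flN N (constK A q)} {a c : ptChart A q p} (hc : c ∉ p.2)
    (h : W.valuation (x * c - (a : flN N (constK A q))) < 1) :
    brVal hC hp hL W x = ptRes hC hp hL a / ptRes hC hp hL c := by
  have hb := inBr_mk hC hp hL hW hT hc h
  rw [brVal, dif_pos hb]
  obtain ⟨hc', h'⟩ := hb.2.choose_spec.choose_spec
  set a' := hb.2.choose
  set c' := hb.2.choose_spec.choose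
  rw [div_eq_div_iff (fun h0 => hc' ((ptRes_eq_zero hC hp hL).1 h0))
    (fun h0 => hc ((ptRes_eq_zero hC hp hL).1 h0)), ← map_mul, ← map_mul]
  refine ptRes_congr hC hp hL (hT _ ?_)
  have e : ((a' * c - a * c' : ptChart A q p) : flN N (constK A q)) =
      (x * c - a) * c' - (x * c' - a') * c := by push_cast; ring
  rw [e]
  refine Valuation.map_sub_lt _ ?_ ?_
  · rw [map_mul, Thru.valuation_eq_one hC hp hL hW hT hc', mul_one]; exact h
  · rw [map_mul, Thru.valuation_eq_one hC hp hL hW hT hc, mul_one]; exact h'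

theorem inBr_chart (a : ptChart A q p) : InBr p W (a : flN N (constK A q)) ∧
    brVal hC hp hL W (a : flN N (constK A q)) = ptRes hC hp hL a := by
  have h1 : (1 : ptChart A q p) ∉ p.2 := (Ideal.ne_top_iff_one _).1 hp.1.ne_top
  have h : W.valuation ((a : flN N (constK A q)) * (1 : ptChart A q p) - (a : flN N (constK A q))) < 1 := by
    rw [OneMemClass.coe_one, mul_one, sub_self, map_zero]; exact zero_lt_one
  exact ⟨inBr_mk hC hp hL hW hT h1 h, by rw [brVal_eq hC hp hL hW hT h1 h, map_one, div_one]⟩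

theorem inBr_congr {x y : flN N (constK A q)} (hx : InBr p W x) (h : W.valuation (y - x) < 1) :
    InBr p W y ∧ brVal hC hp hL W y = brVal hC hp hL W x := by
  obtain ⟨-, a, c, hc, he⟩ := hx
  have h' : W.valuation (y * c - (a : flN N (constK A q))) < 1 := by
    rw [show y * (c : flN N (constK A q)) - (a : flN N (constK A q)) = (y - x) * c + (x * c - a) by
      ring]
    refine Valuation.map_add_lt _ ?_ he
    rw [map_mul, Thru.valuation_eq_one hC hp hL hW hT hc, mul_one]
    exact h
  exact ⟨inBr_mk hC hp hL hW hT hc h',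
    (brVal_eq hC hp hL hW hT hc h').trans (brVal_eq hC hp hL hW hT hc he).symm⟩

theorem inBr_of_small {x : flN N (constK A q)} (h : W.valuation x < 1) :
    InBr p W x ∧ brVal hC hp hL W x = 0 := by
  have h0 := inBr_chart hC hp hL hW hT (0 : ptChart A q p)
  obtain ⟨h1, h2⟩ := inBr_congr hC hp hL hW hT h0.1 (y := x) (by simpa using h)
  exact ⟨h1, by rw [h2, h0.2, map_zero]⟩

theorem inBr_add {x y : flN N (constK A q)} (hx : InBr p W x) (hy : InBr p W y) :
    InBr p W (x + y) ∧ brVal hC hp hL W (x + y) = brVal hC hp hL W x + brVal hC hp hL W y := by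
  obtain ⟨-, a, c, hc, he⟩ := hx
  obtain ⟨-, a', c', hc', he'⟩ := hy
  have hcc : c * c' ∉ p.2 := fun h => (hp.1.isPrime.mem_or_mem h).elim hc hc'
  have h' : W.valuation ((x + y) * ((c * c' : ptChart A q p) : flN N (constK A q)) -
      ((a * c' + a' * c : ptChart A q p) : flN N (constK A q))) < 1 := by
    push_cast
    rw [show (x + y) * ((c : flN N (constK A q)) * c') - ((a : flN N (constK A q)) * c' + a' * c) =
      (x * c - a) * c' + (y * c' - a') * c by ring]
    refine Valuation.map_add_lt _ ?_ ?_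
    · rw [map_mul, Thru.valuation_eq_one hC hp hL hW hT hc', mul_one]; exact he
    · rw [map_mul, Thru.valuation_eq_one hC hp hL hW hT hc, mul_one]; exact he'
  refine ⟨inBr_mk hC hp hL hW hT hcc h', ?_⟩
  rw [brVal_eq hC hp hL hW hT hcc h', brVal_eq hC hp hL hW hT hc he,
    brVal_eq hC hp hL hW hT hc' he', map_add, map_mul, map_mul, map_mul,
    div_add_div _ _ (fun h0 => hc ((ptRes_eq_zero hC hp hL).1 h0))
      (fun h0 => hc' ((ptRes_eq_zero hC hp hL).1 h0))]
  ring

theorem inBr_mul {x y : flN N (constK A q)} (hx : InBr p W x) (hy : InBr p W y) :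
    InBr p W (x * y) ∧ brVal hC hp hL W (x * y) = brVal hC hp hL W x * brVal hC hp hL W y := by
  obtain ⟨hxW, a, c, hc, he⟩ := hx
  obtain ⟨hyW, a', c', hc', he'⟩ := hy
  have hcc : c * c' ∉ p.2 := fun h => (hp.1.isPrime.mem_or_mem h).elim hc hc'
  have h' : W.valuation (x * y * ((c * c' : ptChart A q p) : flN N (constK A q)) -
      ((a * a' : ptChart A q p) : flN N (constK A q))) < 1 := by
    push_cast
    rw [show x * y * ((c : flN N (constK A q)) * c') - (a : flN N (constK A q)) * a' =
      (x * c - a) * (y * c') + a * (y * c' - a') by ring]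
    refine Valuation.map_add_lt _ ?_ ?_
    · rw [map_mul]
      refine lt_of_le_of_lt (mul_le_of_le_one_right' ((W.valuation_le_one_iff _).2 ?_)) he
      exact mul_mem hyW (hW.chart_le hC _ c'.2)
    · rw [map_mul]
      exact lt_of_le_of_lt (mul_le_of_le_one_left'
        ((W.valuation_le_one_iff _).2 (hW.chart_le hC _ a.2))) he'
  refine ⟨inBr_mk hC hp hL hW hT hcc h', ?_⟩
  rw [brVal_eq hC hp hL hW hT hcc h', brVal_eq hC hp hL hW hT hc he,
    brVal_eq hC hp hL hW hT hc' he', map_mul, map_mul, div_mul_div_comm]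

/-- The functions regular on a branch. -/
def brRing : Subring (flN N (constK A q)) where
  carrier := {x | InBr p W x}
  one_mem' := (inBr_chart hC hp hL hW hT 1).1
  zero_mem' := (inBr_chart hC hp hL hW hT 0).1
  mul_mem' hx hy := (inBr_mul hC hp hL hW hT hx hy).1
  add_mem' hx hy := (inBr_add hC hp hL hW hT hx hy).1
  neg_mem' := fun {x} hx => by
    rw [show -x = ((-1 : ptChart A q p) : flN N (constK A q)) * x by push_cast; ring]
    exact (inBr_mul hC hp hL hW hT (inBr_chart hC hp hL hW hT _).1 hx).1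

/-- Evaluation on a branch. -/
def brEv : brRing hC hp hL hW hT →+* IsLocalRing.ResidueField A where
  toFun x := brVal hC hp hL W (x : flN N (constK A q))
  map_one' := (inBr_chart hC hp hL hW hT 1).2.trans (map_one _)
  map_zero' := (inBr_chart hC hp hL hW hT 0).2.trans (map_zero _)
  map_mul' x y := (inBr_mul hC hp hL hW hT x.2 y.2).2
  map_add' x y := (inBr_add hC hp hL hW hT x.2 y.2).2

theorem inBr_pow {x : flN N (constK A q)} (hx : InBr p W x) (j : ℕ) :
    InBr p W (x ^ j) ∧ brVal hC hp hL W (x ^ j) = brVal hC hp hL W x ^ j :=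
  ⟨pow_mem (show x ∈ brRing hC hp hL hW hT from hx) j, map_pow (brEv hC hp hL hW hT) ⟨x, hx⟩ j⟩

/-- Roots of regular elements are regular. -/
theorem inBr_root {n : ℕ} (hn : n ≠ 0) {x : flN N (constK A q)} (hxn : InBr p W (x ^ n)) :
    InBr p W x := by
  have hxW : x ∈ W := by
    have h1 := (W.valuation_le_one_iff _).2 hxn.1
    rw [map_pow, pow_le_one_iff hn] at h1
    exact (W.valuation_le_one_iff _).1 h1
  refine (hL.branch W hW hT x hxW).resolve_right ?_
  rintro ⟨a, c, ha, hc, he⟩
  -- `x a` has the value of `c`, so its power has value zero and nonzero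
  obtain ⟨hca, hvc⟩ := inBr_congr hC hp hL hW hT (inBr_chart hC hp hL hW hT c).1 he
  have h1 := (inBr_pow hC hp hL hW hT hca n).2
  rw [hvc, (inBr_chart hC hp hL hW hT c).2, mul_pow,
    (inBr_mul hC hp hL hW hT hxn (inBr_pow hC hp hL hW hT (inBr_chart hC hp hL hW hT a).1 n).1).2,
    (inBr_pow hC hp hL hW hT (inBr_chart hC hp hL hW hT a).1 n).2,
    (inBr_chart hC hp hL hW hT a).2, (ptRes_eq_zero hC hp hL).2 ha, zero_pow hn, mul_zero] at h1
  exact hc ((ptRes_eq_zero hC hp hL).1 ((pow_eq_zero_iff hn).1 h1.symm))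

/-- Elements regular at the point are regular on the branch. -/
theorem inBr_loc {x : flN N (constK A q)} {a c : ptChart A q p} (hc : c ∉ p.2)
    (he : x * c = (a : flN N (constK A q))) :
    InBr p W x ∧ brVal hC hp hL W x = ptRes hC hp hL a / ptRes hC hp hL c := by
  have h : W.valuation (x * c - (a : flN N (constK A q))) < 1 := by
    rw [he, sub_self, map_zero]; exact zero_lt_one
  exact ⟨inBr_mk hC hp hL hW hT hc h, brVal_eq hC hp hL hW hT hc h⟩

/-- Automorphisms fixing the point move values along. -/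
theorem inBr_map {φ : flN N (constK A q) ≃+* flN N (constK A q)} (hφ : FixesPt φ p)
    {W' : ValuationSubring (flN N (constK A q))} (hW' : IsVertF A q ϖ z W') (hT' : Thru p W')
    (hs : ∀ y, W.valuation y < 1 → W'.valuation (φ y) < 1) {x : flN N (constK A q)}
    (hx : InBr p W x) :
    InBr p W' (φ x) ∧ brVal hC hp hL W' (φ x) = brVal hC hp hL W x := by
  obtain ⟨-, a, c, hc, he⟩ := hx
  obtain ⟨a', ha', haa⟩ := hφ a
  obtain ⟨c', hc', hcc⟩ := hφ c
  have hc'p : c' ∉ p.2 := fun h => hc (by simpa using Ideal.sub_mem _ h hcc)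
  have h' : W'.valuation (φ x * c' - (a' : flN N (constK A q))) < 1 := by
    rw [hc', ha', ← map_mul, ← map_sub]
    exact hs _ he
  refine ⟨inBr_mk hC hp hL hW' hT' hc'p h', ?_⟩
  rw [brVal_eq hC hp hL hW' hT' hc'p h', brVal_eq hC hp hL hW hT hc he,
    ptRes_congr hC hp hL haa, ptRes_congr hC hp hL hcc]

omit hW hT

/-- The functions regular at the point. -/
def locRing : Subring (flN N (constK A q)) where
  carrier := {x | InLoc p x}
  one_mem' := ⟨1, 1, (Ideal.ne_top_iff_one _).1 hp.1.ne_top, by simp⟩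
  zero_mem' := ⟨0, 1, (Ideal.ne_top_iff_one _).1 hp.1.ne_top, by simp⟩
  mul_mem' := by
    rintro x y ⟨a, c, hc, he⟩ ⟨a', c', hc', he'⟩
    refine ⟨a * a', c * c', fun h => (hp.1.isPrime.mem_or_mem h).elim hc hc', ?_⟩
    push_cast
    rw [← he, ← he']; ring
  add_mem' := by
    rintro x y ⟨a, c, hc, he⟩ ⟨a', c', hc', he'⟩
    refine ⟨a * c' + a' * c, c * c', fun h => (hp.1.isPrime.mem_or_mem h).elim hc hc', ?_⟩
    push_cast
    rw [← he, ← he']; ring
  neg_mem' := by
    rintro x ⟨a, c, hc, he⟩
    exact ⟨-a, c, hc, by push_cast; rw [← he]; ring⟩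

theorem inLoc_root {n : ℕ} (hn : n ≠ 0) {x : flN N (constK A q)} (hx : InLoc p (x ^ n)) :
    InLoc p x := by
  obtain ⟨a, c, hc, he⟩ := hx
  have hmem : (x * (c : flN N (constK A q))) ^ n ∈ ptChart A q p := by
    rw [mul_pow, show (c : flN N (constK A q)) ^ n = c * (c : flN N (constK A q)) ^ (n - 1) by
      rw [← pow_succ', Nat.sub_add_cancel (Nat.pos_of_ne_zero hn)], ← mul_assoc, he]
    exact mul_mem a.2 (pow_mem c.2 _)
  have hint : x * (c : flN N (constK A q)) ∈ ptChart A q p := by
    letI : Algebra (Polynomial (OL A q)) (flN N (constK A q)) :=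
      (Polynomial.eval₂RingHom (cF A q N) (coordB A q z p.1)).toAlgebra
    exact IsIntegral.of_pow (R := Polynomial (OL A q)) (Nat.pos_of_ne_zero hn) hmem
  exact ⟨⟨_, hint⟩, c, hc, rfl⟩

end FA.Carayol

end
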