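import Fermat.Agent.Carayol.Assembly.Normal
import Fermat.Agent.Carayol.Group.Orbit
import Fermat.Agent.Carayol.Field.Conj
import Mathlib.GroupTheory.QuotientGroup.Defs

/-!
# The classes of the translates along the components
-/

set_option autoImplicit false
set_option linter.unusedSectionVars false
set_option linter.style.haveILetI false
set_option synthInstance.maxHeartbeats 200000
set_option maxHeartbeats 800000

noncomputable section

namespace FA.Carayol

open UpperHalfPlane hiding I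
open CongruenceSubgroup HahnSeries ModularCurve FA.Level FA.ModField FA.JTorsion FA.Mazur.Wp
open scoped MatrixGroups

local notation "Qb" => AlgebraicClosure ℚ

section units

variable {F : Type*} [Field F] (W : ValuationSubring F) (n : ℕ)

/-- The units which are powers near one. -/
def powUnits : Subgroup Fˣ where
  carrier := {u | IsPow W n (u : F)}
  one_mem' := ⟨1, by rw [one_pow, Units.val_one, div_one]; exact near_one_one⟩
  mul_mem' {a b} ha hb := by
    show IsPow W n ((a * b : Fˣ) : F)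
    rw [Units.val_mul]
    exact ha.mul hb
  inv_mem' {a} ha := by
    show IsPow W n ((a⁻¹ : Fˣ) : F)
    rw [Units.val_inv_eq_inv_val]
    exact ha.inv

/-- The class of an element, zero at zero. -/
def clsOf (x : F) : Additive (Fˣ ⧸ powUnits W n) :=
  letI := Classical.dec (x = 0)
  if h : x = 0 then 0 else Additive.ofMul (QuotientGroup.mk (Units.mk0 x h))

variable {W n}

theorem clsOf_mk {x : F} (hx : x ≠ 0) :
    clsOf W n x = Additive.ofMul (QuotientGroup.mk (Units.mk0 x hx)) := by rw [clsOf, dif_neg hx]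

theorem clsOf_mul {x y : F} (hx : x ≠ 0) (hy : y ≠ 0) :
    clsOf W n (x * y) = clsOf W n x + clsOf W n y := by
  rw [clsOf_mk hx, clsOf_mk hy, clsOf_mk (mul_ne_zero hx hy), ← ofMul_mul, ← QuotientGroup.mk_mul,
    Units.mk0_mul]

theorem clsOf_one : clsOf W n (1 : F) = 0 := by
  rw [clsOf_mk one_ne_zero, Units.mk0_one]
  rfl

theorem clsOf_prod {β : Type*} (s : Finset β) {x : β → F} (hx : ∀ b ∈ s, x b ≠ 0) :
    clsOf W n (∏ b ∈ s, x b) = ∑ b ∈ s, clsOf W n (x b) := by
  classical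
  induction s using Finset.induction with
  | empty => simpa using clsOf_one
  | @insert a s ha ih =>
    rw [Finset.prod_insert ha, Finset.sum_insert ha,
      clsOf_mul (hx a (Finset.mem_insert_self _ _))
        (Finset.prod_ne_zero_iff.2 fun b hb => hx b (Finset.mem_insert_of_mem hb)),
      ih fun b hb => hx b (Finset.mem_insert_of_mem hb)]

theorem clsOf_pow {x : F} (hx : x ≠ 0) (j : ℕ) : clsOf W n (x ^ j) = j • clsOf W n x := by
  have := clsOf_prod (W := W) (n := n) (Finset.range j) (x := fun _ => x) (fun _ _ => hx)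
  simpa using this

theorem clsOf_eq_zero {x : F} (hx : x ≠ 0) : clsOf W n x = 0 ↔ IsPow W n x := by
  rw [clsOf_mk hx, ofMul_eq_zero, QuotientGroup.eq_one_iff]
  rfl

theorem clsOf_congr {x y : F} (hx : x ≠ 0) (hy : y ≠ 0) (h : IsPow W n (x / y)) :
    clsOf W n x = clsOf W n y := by
  rw [clsOf_mk hx, clsOf_mk hy]
  refine congrArg Additive.ofMul (QuotientGroup.eq.2 ?_)
  show IsPow W n (((Units.mk0 x hx)⁻¹ * Units.mk0 y hy : Fˣ) : F)
  rw [Units.val_mul, Units.val_inv_eq_inv_val, Units.val_mk0, Units.val_mk0,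
    show x⁻¹ * y = (x / y)⁻¹ by rw [inv_div, mul_comm, div_eq_mul_inv]]
  exact h.inv

theorem nsmul_clsOf (a : Additive (Fˣ ⧸ powUnits W n)) : n • a = 0 := by
  obtain ⟨u, hu⟩ := QuotientGroup.mk_surjective a.toMul
  rw [← ofMul_toMul a, ← hu, ← ofMul_pow, ofMul_eq_zero, ← QuotientGroup.mk_pow,
    QuotientGroup.eq_one_iff]
  show IsPow W n ((u ^ n : Fˣ) : F)
  rw [Units.val_pow_eq_pow_val]
  exact IsPow.of_pow n u.ne_zero

theorem torsion_clsOf {q : ℕ} [hq : Fact q.Prime] (hqn : ¬ q ∣ n)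
    (a : Additive (Fˣ ⧸ powUnits W n)) (h : q • a = 0) : a = 0 := by
  have h1 : addOrderOf a ∣ Nat.gcd q n :=
    Nat.dvd_gcd (addOrderOf_dvd_of_nsmul_eq_zero h) (addOrderOf_dvd_of_nsmul_eq_zero (nsmul_clsOf a))
  rw [Nat.Coprime.gcd_eq_one (hq.out.coprime_iff_not_dvd.2 hqn), Nat.dvd_one] at h1
  exact AddMonoid.addOrderOf_eq_one_iff.1 h1

end units

/-- An element congruent to another modulo `N` differs by an element of `Γ(N)`. -/
theorem mul_inv_mem_gammaN {N : ℕ} {g g' : SL(2, ℤ)}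
    (h : ∀ i j, (g' i j : ZMod N) = (g i j : ZMod N)) : g' * g⁻¹ ∈ Gamma N := by
  rw [Gamma_mem']
  have : Matrix.SpecialLinearGroup.map (Int.castRingHom (ZMod N)) g' =
      Matrix.SpecialLinearGroup.map (Int.castRingHom (ZMod N)) g :=
    Subtype.ext (Matrix.ext fun i j => h i j)
  rw [map_mul, map_inv, this, mul_inv_cancel]

theorem intCast_eq_mul {q m : ℕ} [hq : Fact q.Prime] (hqm : ¬ q ∣ m) {a b : ℤ}
    (h1 : (a : ZMod q) = b) (h2 : (a : ZMod m) = b) : ((q * m : ℕ) : ℤ) ∣ a - b := by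
  rw [Nat.cast_mul]
  exact (Nat.isCoprime_iff_coprime.2 (hq.out.coprime_iff_not_dvd.2 hqm)).mul_dvd
    ((ZMod.intCast_eq_intCast_iff_dvd_sub b a q).1 h1.symm)
    ((ZMod.intCast_eq_intCast_iff_dvd_sub b a m).1 h2.symm)

theorem intCast_of_dvd_sub {N : ℕ} {a b : ℤ} (h : (N : ℤ) ∣ a - b) : (a : ZMod N) = b :=
  ((ZMod.intCast_eq_intCast_iff_dvd_sub b a N).2 h).symm

theorem upU_mem_of_dvd {m : ℕ} {k : ℤ} (hk : (m : ℤ) ∣ k) : upU k ∈ Gamma m := by
  rw [Gamma_mem]
  simp [upU, (ZMod.intCast_zmod_eq_zero_iff_dvd k m).2 hk]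

theorem lowU_mem_of_dvd {m : ℕ} {k : ℤ} (hk : (m : ℤ) ∣ k) : lowU k ∈ Gamma m := by
  rw [Gamma_mem]
  simp [lowU, (ZMod.intCast_zmod_eq_zero_iff_dvd k m).2 hk]

theorem zmod_two_eq_one : ∀ u : ZMod 2, u ≠ 0 → u = 1 := by decide

variable [Algebra Qb ℂ] {A : ValuationSubring Qb} {q m ℓ M' n : ℕ} [hq : Fact q.Prime]
  [NeZero m] [NeZero (q * m)] {ϖ : OL A q}
  {W₀ : ValuationSubring (flN (q * m) (constK A q))} {f : flN (q * m) (constK A q)}

theorem eq_one_of_zmod_two (t : ZMod q) (h2 : q = 2) (ht : t ≠ 0) : t = 1 := by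
  subst h2
  exact zmod_two_eq_one t ht

theorem gamma_mul_fix {δ : SL(2, ℤ)} (hδ : δ ∈ Gamma (q * m)) (x : flN (q * m) (constK A q)) :
    flAct δ x = x := Subtype.ext (merSL_eq_self hδ x.2)

theorem cast_natCast_ne_zero (hqm : ¬ q ∣ m) (hM : M' ∣ m) : (M' : ZMod q) ≠ 0 := fun h =>
  hqm (dvd_trans ((ZMod.natCast_eq_zero_iff M' q).1 h) hM)

/-- The translations by `upU k`, `m ∣ k`, move nothing at infinity. -/
theorem IsInfty.near_upU (hW : IsInfty A q ϖ W₀) (hA : A.LiesOverPrime q)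
    (hqm : ¬ q ∣ m) {k : ℤ} (hk : (m : ℤ) ∣ k) {x : flN (q * m) (constK A q)} (hx : x ∈ W₀) :
    W₀.valuation (flAct (upU k) x - x) < 1 := by
  obtain ⟨ε, h1, h2⟩ := exists_unit_eta (N := q * m) hA k
    (constHolds q A hA m (NeZero.ne m) hqm).roots (by rw [Nat.cast_mul]; exact mul_dvd_mul_left _ hk)
  exact hW.near_of_series (fun y a b he => upU_series k ε h1 h2 y a b he) hx

theorem IsInfty.isPow_upU (hW : IsInfty A q ϖ W₀) (hC : ConstHyp A (constL A q).toSubfield ϖ)
    (hA : A.LiesOverPrime q) (hqm : ¬ q ∣ m) (hn : n ≠ 0) {k : ℤ} (hk : (m : ℤ) ∣ k)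
    {x : flN (q * m) (constK A q)} (hx : x ≠ 0) : IsPow W₀ n (flAct (upU k) x / x) := by
  obtain ⟨ε, h1, h2⟩ := exists_unit_eta (N := q * m) hA k
    (constHolds q A hA m (NeZero.ne m) hqm).roots (by rw [Nat.cast_mul]; exact mul_dvd_mul_left _ hk)
  refine hW.isPow_ratio hC hn (fun y a b he => upU_series k ε h1 h2 y a b he) isUnit_one ?_ hx
  rw [map_one, one_mul]
  show flAct (upU k) (toFl (rC (baseK A q ϖ))) = toFl (rC (baseK A q ϖ))
  rw [flAct_toFl, rAct_rC]

/-- The automorphism of the integral constants attached to one of the constants. -/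
theorem exists_tau (hA : A.LiesOverPrime q) (hqm : ¬ q ∣ m)
    (hC : ConstHyp A (constL A q).toSubfield ϖ) {σ : constK A q ≃+* constK A q}
    (hσ : ∀ x y : Qb, ∀ hx : algebraMap Qb ℂ x ∈ constK A q,
      algebraMap Qb ℂ y = (σ ⟨algebraMap Qb ℂ x, hx⟩ : ℂ) → x ∈ A → A.valuation (y - x) < 1) :
    ∃ (τ : OL A q →+* OL A q) (u : OL A q), IsUnit u ∧ τ ϖ = u * ϖ ∧
      (∀ a, baseK A q (τ a) = σ (baseK A q a)) ∧ ∀ a, resO A q (τ a) = resO A q a := by
  have key : ∀ a : OL A q, ∃ b : OL A q, baseK A q b = σ (baseK A q a) ∧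
      resO A q b = resO A q a := by
    intro a
    obtain ⟨y, hy, hye⟩ := (σ (baseK A q a)).2
    have h1 : A.valuation (y - (a : Qb)) < 1 := hσ (a : Qb) y (baseK A q a).2 hye a.2.1
    have hyA : y ∈ A := by
      have := add_mem ((A.valuation_le_one_iff _).1 h1.le) a.2.1
      rwa [sub_add_cancel] at this
    refine ⟨⟨y, hyA, hy⟩, Subtype.ext hye, ?_⟩
    rw [← sub_eq_zero, ← map_sub, resO_eq_zero_iff]
    exact h1
  choose τ hτ1 hτ2 using key
  let τh : OL A q →+* OL A q :=
    { toFun := τ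
      map_one' := baseK_inj (by rw [hτ1, map_one, map_one])
      map_zero' := baseK_inj (by rw [hτ1, map_zero, map_zero])
      map_add' := fun a b => baseK_inj (by simp only [map_add, hτ1])
      map_mul' := fun a b => baseK_inj (by simp only [map_mul, hτ1]) }
  obtain ⟨u, hu⟩ := pi_dvd_of_resO hC (a := τh ϖ) (by
    show resO A q (τ ϖ) = 0
    rw [hτ2, resO_uniformizer hC])
  refine ⟨τh, u, ?_, hu.trans (mul_comm _ _), hτ1, hτ2⟩
  -- the valuations of `ϖ` and its image agree
  obtain ⟨ϖ', hv', hC'⟩ := (constHolds q A hA m (NeZero.ne m) hqm).const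
  haveI := hC.dvr
  obtain ⟨w, hw⟩ : Associated ϖ ϖ' :=
    IsDiscreteValuationRing.associated_of_irreducible _ hC.irreducible hC'.irreducible
  have hval : ∀ v : OL A q, IsUnit v → A.valuation ((v : OL A q) : Qb) = 1 := fun v hv =>
    le_antisymm ((A.valuation_le_one_iff _).2 v.2.1)
      (not_lt.1 fun h => resO_ne_of_unit hv ((resO_eq_zero_iff _).2 h))
  have hvϖ : A.valuation (ϖ : Qb) ^ (q - 1) = A.valuation (q : Qb) := by
    rw [← hv', ← hw, Subring.coe_mul, map_mul, hval _ w.isUnit, mul_one]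
  have hq0 : (q : Qb) ≠ 0 := Nat.cast_ne_zero.2 hq.out.ne_zero
  have hv1 : A.valuation ((ϖ : Qb) ^ (q - 1) / (q : Qb)) = 1 := by
    rw [map_div₀, map_pow, hvϖ, div_self ((Valuation.ne_zero_iff _).2 hq0)]
  set w₁ : OL A q := ⟨_, (A.valuation_le_one_iff _).1 hv1.le,
    (constL A q).toSubfield.div_mem ((constL A q).toSubfield.pow_mem ϖ.2.2 _)
      (natCast_mem _ q)⟩
  have hw₁ : ϖ ^ (q - 1) = (q : OL A q) * w₁ := Subtype.ext (by
    rw [Subring.coe_mul, Subring.coe_natCast, Subring.coe_pow]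
    exact (mul_div_cancel₀ _ hq0).symm)
  have hw₁u : IsUnit w₁ := isUnit_of_resO fun h => ((resO_eq_zero_iff w₁).1 h).ne hv1
  have h2 : ((ϖ * u) ^ (q - 1) : OL A q) = (q : OL A q) * τh w₁ := by
    rw [← hu, ← map_pow, hw₁, map_mul, map_natCast]
  have h3 : w₁ * u ^ (q - 1) = τh w₁ := by
    have hqO : (q : OL A q) ≠ 0 := fun h => hq0 (by simpa using congrArg Subtype.val h)
    refine mul_left_cancel₀ hqO ?_
    rw [← mul_assoc, ← hw₁, ← mul_pow, h2]
  have h4 : IsUnit (u ^ (q - 1)) := isUnit_of_mul_isUnit_right (h3 ▸ hw₁u.map τh)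
  exact (isUnit_pow_iff (by have := hq.out.two_le; omega : q - 1 ≠ 0)).1 h4

/-- **Every translate of the power is a power near one at infinity.** -/
theorem isPow_translate (hqm : ¬ q ∣ m) (hM : M' ∣ m) (h2 : 2 ∣ q * m) (h4 : 4 ≤ q * m)
    (hA : A.LiesOverPrime q) (hC : ConstHyp A (constL A q).toSubfield ϖ)
    (hW : IsInfty A q ϖ W₀) (hℓ : ℓ ∣ m) (hℓ2 : q ≠ 2 → 2 ∣ ℓ) (hn : n ≠ 0) (hqn : ¬ q ∣ n)
    (hf : NormFun A q M' n f) (hv : W₀.valuation f = 1) {g : SL(2, ℤ)} (hg : g ∈ Gamma ℓ) :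
    IsPow W₀ n (flAct g (f ^ (q * q - 1))) := by
  obtain ⟨h, hN⟩ := h2
  have hh : 2 ≤ h := by omega
  have hfacts := constHolds q A hA m (NeZero.ne m) hqm
  have hne : ∀ x : SL(2, ℤ), flAct x f ≠ 0 := fun x => (map_ne_zero _).2 hf.ne_zero
  set R : SL(2, ℤ) → _ := fun x => clsOf W₀ n (flAct x f) with hR
  have hm0 : (m : ZMod q) ≠ 0 := fun h0 => hqm ((ZMod.natCast_eq_zero_iff m q).1 h0)
  have hup : ∀ x, ∑ b ∈ Finset.range q, R (upU ((m * b : ℕ) : ℤ) * x) =
      clsOf W₀ n (flAct x (∏ b ∈ Finset.range q, flAct (upU b) f)) := fun x => by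
    rw [← hf.prod_up hm0 (fun b => ((m * b : ℕ) : ℤ)) (fun b => by push_cast; ring), map_prod,
      clsOf_prod _ fun b _ => (map_ne_zero _).2 (hne _)]
    simp only [R, flAct_mul]
  have hlow : ∀ x, ∑ b ∈ Finset.range q, R (lowU ((m * b : ℕ) : ℤ) * x) =
      clsOf W₀ n (flAct x (∏ b ∈ Finset.range q, flAct (lowU (b * M')) f)) := fun x => by
    rw [← hf.prod_low (cast_natCast_ne_zero hqm hM) hm0 (fun b => ((m * b : ℕ) : ℤ))
      (fun b => by push_cast; ring)
      (fun b => by exact_mod_cast hM.mul_right b), map_prod,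
      clsOf_prod _ fun b _ => (map_ne_zero _).2 (hne _)]
    simp only [R, flAct_mul]
  have htr : ∀ {c : constK A q}, c ≠ 0 → ∀ {y : flN (q * m) (constK A q)}, y ≠ 0 → ∀ x,
      clsOf W₀ n (flAct x (toFl (rC c) * y ^ n)) = clsOf W₀ n (toFl (rC (N := q * m) c)) := by
    intro c hc y hy x
    have hc0 : toFl (rC (N := q * m) c) ≠ 0 :=
      (map_ne_zero_iff _ toFl_injective).2 ((map_ne_zero_iff _ (rC (N := q * m)).injective).2 hc)
    rw [map_mul, map_pow, flAct_toFl, rAct_rC]
    refine clsOf_congr (mul_ne_zero hc0 (pow_ne_zero n ((map_ne_zero _).2 hy))) hc0 ?_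
    rw [mul_div_cancel_left₀ _ hc0]
    exact IsPow.of_pow n ((map_ne_zero _).2 hy)
  obtain ⟨cu, hcu, yu, hyu⟩ := hf.up
  obtain ⟨cl, hcl, yl, hyl⟩ := hf.low
  have hyu0 : yu ≠ 0 := fun h0 => by
    rw [h0, zero_pow hn, mul_zero, Finset.prod_eq_zero_iff] at hyu
    obtain ⟨b, -, hb⟩ := hyu
    exact hne _ hb
  have hyl0 : yl ≠ 0 := fun h0 => by
    rw [h0, zero_pow hn, mul_zero, Finset.prod_eq_zero_iff] at hyl
    obtain ⟨b, -, hb⟩ := hyl
    exact hne _ hb
  have H : ClassFun q m ℓ _ R := by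
    refine ⟨fun γ hγ _ x _ => ?_, fun x _ u hu u00 u10 u11 => ?_, ?_,
      ⟨clsOf W₀ n (toFl (rC (N := q * m) cu)), fun x _ => ?_⟩,
      ⟨clsOf W₀ n (toFl (rC (N := q * m) cl)), fun x _ => ?_⟩, torsion_clsOf hqn⟩
    · simp only [R]
      rw [flAct_mul, hf.inv γ]
      rw [mem_gsp] at hγ ⊢
      exact ⟨hγ.1, dvd_trans (by exact_mod_cast mul_dvd_mul_left q hM) hγ.2⟩
    · obtain ⟨b, hb⟩ := coprime_lift hqm (u 0 1 : ZMod q)
      set k : ℤ := ((m * b : ℕ) : ℤ)
      have hu' := Gamma_mem.1 hu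
      have hk : (k : ZMod m) = 0 := by
        simp [k]
      have hδ : u * (upU k)⁻¹ ∈ Gamma (q * m) := mul_inv_mem_gammaN fun i j => by
        refine intCast_of_dvd_sub (intCast_eq_mul hqm ?_ ?_)
        · fin_cases i <;> fin_cases j
          · simpa [upU] using u00
          · simpa [upU, k] using hb.symm
          · simpa [upU] using u10
          · simpa [upU] using u11
        · fin_cases i <;> fin_cases j
          · simpa [upU] using hu'.1
          · simpa [upU, hk] using hu'.2.1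
          · simpa [upU] using hu'.2.2.1
          · simpa [upU] using hu'.2.2.2
      have e : flAct (x * u) f = flAct (upU k) (flAct x f) := by
        rw [show x * u = x * (u * (upU k)⁻¹) * upU k by group, flAct_mul, flAct_mul,
          gamma_mul_fix hδ]
      simp only [R]
      rw [e]
      exact clsOf_congr ((map_ne_zero _).2 (hne x)) (hne x)
        (hW.isPow_upU hC hA hqm hn ⟨b, by push_cast [k]; ring⟩ (hne x))
    · intro s hs x hx x' hx' hm' e00 e01 e10 e11
      simp only [R]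
      rcases eq_or_ne q 2 with hq2 | hq2
      · have hs1 : s = 1 := eq_one_of_zmod_two s hq2 hs
        subst hs1
        have hδ : x' * x⁻¹ ∈ Gamma (q * m) := mul_inv_mem_gammaN fun i j => by
          refine intCast_of_dvd_sub (intCast_eq_mul hqm ?_ (hm' i j))
          fin_cases i <;> fin_cases j
          · exact e00
          · simpa using e01
          · simpa using e10
          · exact e11
        rw [show x' = x' * x⁻¹ * x by group, flAct_mul, gamma_mul_fix hδ]
      · obtain ⟨b, hb⟩ := coprime_lift hqm (s - 1)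
        set si : ℤ := 1 + ((m * b : ℕ) : ℤ) with hsi
        have hsq : (si : ZMod q) = s := by
          rw [hsi, Int.cast_add, Int.cast_one, Int.cast_natCast, hb, add_sub_cancel]
        have hsm : (si : ZMod m) = 1 := by simp [hsi]
        have hnq : ¬ (q : ℤ) ∣ si := fun hd =>
          hs (hsq ▸ (ZMod.intCast_zmod_eq_zero_iff_dvd si q).2 hd)
        obtain ⟨σ, hσ1, hσ0, hσ2⟩ := hfacts.inertia si hnq ⟨b, by push_cast [hsi]; ring⟩
        obtain ⟨u, v, huv⟩ : IsCoprime si ((q * m : ℕ) : ℤ) := by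
          push_cast
          refine IsCoprime.mul_right ?_ ?_
          · exact ((Nat.prime_iff_prime_int.1 hq.out).coprime_iff_not_dvd.2 hnq).symm
          · exact ⟨1, -(b : ℤ), by push_cast [hsi]; ring⟩
        let S : CoeffAut (q * m) (constK A q) hfacts.roots :=
          ⟨σ, si, u, fun c => Subtype.ext (hσ1 c _), ⟨-v, by linear_combination huv⟩⟩
        have hfx : conjAut hN hh hfacts.roots S f = f := ser_injective (by
          rw [ser_conjAut]
          exact HahnSeries.ext (funext fun i => by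
            rw [coeffMap_coeff]
            exact hσ0 _ (hf.coeff i)))
        have hgam : ∀ y ∈ Gamma ℓ, y ∈ Gamma 2 := fun y hy => gamma_le_of_dvd (hℓ2 hq2) hy
        have hd : ∀ {a c : ℤ}, (a : ZMod q) = c → (a : ZMod m) = c → ((q * m : ℕ) : ℤ) ∣ a - c :=
          fun h1 h2 => intCast_eq_mul hqm h1 h2
        have e := conjAut_flAct hN hh hfacts.roots S (hgam x hx) (hgam x' hx')
          (hd e00 (hm' 0 0))
          (hd (by rw [Int.cast_mul, hsq]; exact e01)
            (by rw [Int.cast_mul, hsm, one_mul]; exact hm' 0 1))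
          (hd (by rw [Int.cast_mul, hsq]; exact e10)
            (by rw [Int.cast_mul, hsm, one_mul]; exact hm' 1 0))
          (hd e11 (hm' 1 1)) f
        rw [hfx] at e
        rw [← e]
        obtain ⟨τ, w, hw, hτϖ, hτK, hτres⟩ := exists_tau (ϖ := ϖ) hA hqm hC hσ2
        refine clsOf_congr ((map_ne_zero _).2 (hne x)) (hne x) ?_
        refine hW.isPow_ratio hC hn (φ := (conjAut hN hh hfacts.roots S).toRingHom)
          (fun y a c he => ⟨coeffMap τ a, coeffMap τ c, ?_, ?_, ?_⟩) hw ?_ (hne x)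
        · exact HahnSeries.ext (funext fun i => by simp [redO, hτres])
        · exact HahnSeries.ext (funext fun i => by simp [redO, hτres])
        · have hco : ∀ s : LaurentSeries (OL A q), serO A q (coeffMap τ s) =
              coeffMap (σ : constK A q →+* constK A q) (serO A q s) := fun s =>
            HahnSeries.ext (funext fun i => by simp [serO, hτK])
          show ser (conjAut hN hh hfacts.roots S y) * _ = _
          rw [ser_conjAut, hco, hco, ← he, map_mul]
        · show conjAut hN hh hfacts.roots S (toFl (rC (baseK A q ϖ))) = _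
          rw [conjAut_rC, show σ (baseK A q ϖ) = baseK A q (τ ϖ) from (hτK ϖ).symm, hτϖ, map_mul,
            map_mul, map_mul]
          rfl
    · rw [hup, hyu, htr hcu hyu0]
    · rw [hlow, hyl, htr hcl hyl0]
  -- the class of the function itself
  have hR1 : R 1 = 0 := by
    refine torsion_clsOf hqn _ ?_
    have h1 := hup 1
    rw [hyu, htr hcu hyu0, Finset.sum_congr rfl (g := fun _ => R 1) fun b _ => ?_, Finset.sum_const,
      Finset.card_range] at h1
    · rw [h1]
      have hv1 : W₀.valuation (toFl (rC cu) * yu ^ n) = W₀.valuation (1 : flN (q * m) _) ^ n := by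
        rw [← hyu, map_prod, map_one, one_pow]
        refine Finset.prod_eq_one fun b _ => ?_
        obtain ⟨c, hc⟩ := coprime_lift hqm (b : ZMod q)
        rw [hf.upU_congr (show ((b : ℤ) : ZMod q) = (((m * c : ℕ) : ℤ) : ZMod q) by
          rw [Int.cast_natCast, Int.cast_natCast, hc])]
        have h2 := hW.near_upU hA hqm (k := ((m * c : ℕ) : ℤ)) ⟨c, by push_cast; ring⟩
          ((W₀.valuation_le_one_iff _).1 hv.le)
        rw [← hv] at h2
        exact (Valuation.map_eq_of_sub_lt _ h2).trans hv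
      obtain ⟨u, hu, i, hce⟩ := hW.exists_unit_trace hC hcu hn hv1 one_ne_zero
      have hϖ0 : cF A q (q * m) ϖ ^ i ≠ 0 :=
        zpow_ne_zero _ ((map_ne_zero_iff _ cF_inj).2 hC.irreducible.ne_zero)
      have hu0 : cF A q (q * m) u ≠ 0 := (map_ne_zero_iff _ cF_inj).2 hu.ne_zero
      rw [hce]
      exact (clsOf_eq_zero (mul_ne_zero hu0 (pow_ne_zero n hϖ0))).2
        ((hW.isPow_unit hC hn hu).mul (IsPow.of_pow n hϖ0))
    · rw [mul_one]
      simpa using H.right 1 (one_mem _) (upU ((m * b : ℕ) : ℤ)) (upU_mem b) (by simp [upU])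
        (by simp [upU]) (by simp [upU])
  have hk := ClassFun.killed hqm H hℓ hg
  replace hk : (q * q - 1) • R g = 0 :=
    (congrArg ((q * q - 1) • ·) (sub_eq_self.2 hR1).symm).trans hk
  simp only [R] at hk
  rw [← clsOf_pow (hne g)] at hk
  rw [map_pow]
  exact (clsOf_eq_zero (pow_ne_zero _ (hne g))).1 hk

/-- **Roots at every component.** -/
theorem isPow_vertical {z : flN (q * m) (constK A q)} (hV : VertFacts A q ℓ ϖ z W₀)
    {x : flN (q * m) (constK A q)} (hx : ∀ g ∈ Gamma ℓ, IsPow W₀ n (flAct g x))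
    {W : ValuationSubring (flN (q * m) (constK A q))} (hW : IsVertF A q ϖ z W) :
    IsPow W n x := by
  obtain ⟨γ, hγ, hmem⟩ := hV.orbit W hW
  exact IsPow.of_mem_iff (φ := flEquiv γ) hmem (hx γ hγ)

end FA.Carayol

end
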