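import Fermat.Agent.Carayol.Model.PtDefs
import Fermat.Agent.Carayol.Assembly.Infinity
import Mathlib.FieldTheory.Fixed
import Mathlib.FieldTheory.IntermediateField.Adjoin.Basic

/-!
# The field of level `N` inside a finite extension of the line over `ℚ̄`
-/

set_option autoImplicit false
set_option linter.unusedSectionVars false
set_option linter.style.haveILetI false
set_option synthInstance.maxHeartbeats 200000
set_option maxHeartbeats 800000

noncomputable section

namespace FA.Carayol

open CongruenceSubgroup HahnSeries ModularCurve FA.Level FA.JTorsion FA.Mazur.Wp Polynomial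
open scoped MatrixGroups

local notation "Qb" => AlgebraicClosure ℚ

variable [Algebra Qb ℂ] {A : ValuationSubring Qb} {q N : ℕ} [NeZero N] {ℓ : ℕ}
  {z : flN N (constK A q)}

/-- A constant of `ℚ̄` in `Mer`. -/
def qbMer : Qb →+* Mer := merC.comp (algebraMap Qb ℂ)

theorem coe_toFl_rC_mk {x : Qb} (hx : x ∈ constL A q) (h : algebraMap Qb ℂ x ∈ constK A q) :
    ((toFl (rC (N := N) (⟨algebraMap Qb ℂ x, h⟩ : constK A q)) : flN N (constK A q)) : Mer) =
      qbMer x := rfl

/-- The coordinate is no constant. -/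
theorem coord_ne_const (hz : Coord A q ℓ z) (r : Qb) : (z : Mer) ≠ qbMer r := by
  intro he
  have hc : algebraMap Qb ℂ r ∈ constK A q := by
    have h1 := ser_mono (le_top : constK A q ≤ ⊤) z
    rw [show (⟨z.1, flN_mono le_top z.2⟩ : flN N (⊤ : Subfield ℂ)) =
        toFl (rC ⟨algebraMap Qb ℂ r, Subfield.mem_top _⟩) from Subtype.ext he,
      show ∀ g : rN N (⊤ : Subfield ℂ), ser (toFl g) = rSer g from ser_rMer, rSer_rC] at h1
    have h2 := congrArg (fun s : LaurentSeries (⊤ : Subfield ℂ) => ((s.coeff 0 : _) : ℂ)) h1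
    simp only [HahnSeries.C_apply, coeff_single_same, coeffMap_coeff] at h2
    exact h2 ▸ ((ser z).coeff 0).2
  obtain ⟨r', hr', hre⟩ := hc
  obtain rfl := (algebraMap Qb ℂ).injective hre
  have hzc : z = toFl (rC (⟨algebraMap Qb ℂ r', r', hr', rfl⟩ : constK A q)) := Subtype.ext he
  obtain ⟨a, b, hb, hab, htr⟩ := hz.transc
  have hserC : ser z = HahnSeries.C (⟨algebraMap Qb ℂ r', r', hr', rfl⟩ : constK A q) := by
    rw [hzc, ser_toFl, rSer_rC]
  have hserO : Function.Injective (serO A q) := fun s t h =>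
    HahnSeries.ext (funext fun i => baseK_inj (by
      simpa [serO] using congrArg (fun u : LaurentSeries _ => u.coeff i) h))
  rcases A.mem_or_inv_mem r' with hA | hA
  · have hz' : ser z = serO A q (HahnSeries.C (⟨r', hA, hr'⟩ : OL A q)) := by
      rw [hserC, serO, HahnSeries.C_apply, HahnSeries.C_apply, coeffMap_single]
      rfl
    rw [hz', ← map_mul] at hab
    refine htr (X - Polynomial.C (resO A q ⟨r', hA, hr'⟩)) (X_sub_C_ne_zero _) ?_
    rw [← hserO hab, map_mul, eval₂_sub, eval₂_X, eval₂_C, mul_div_cancel_right₀ _ hb,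
      redO, HahnSeries.C_apply, HahnSeries.C_apply, coeffMap_single, sub_self]
  · rcases eq_or_ne r' 0 with rfl | hr0
    · rw [show ser z = 0 by
          rw [hserC, show (⟨algebraMap Qb ℂ 0, 0, hr', rfl⟩ : constK A q) = 0 from
            Subtype.ext (map_zero _), map_zero], zero_mul, ← map_zero (serO A q)] at hab
      refine htr X X_ne_zero ?_
      rw [← hserO hab, map_zero, eval₂_X, zero_div]
    set s : OL A q := ⟨r'⁻¹, hA, (constL A q).toSubfield.inv_mem hr'⟩
    by_cases hs : resO A q s = 0
    · refine hb ?_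
      have hb' : serO A q b = serO A q (HahnSeries.C s * a) := by
        rw [map_mul, ← hab, ← mul_assoc, hserC, serO, HahnSeries.C_apply, HahnSeries.C_apply,
          coeffMap_single, HahnSeries.single_mul_single, add_zero]
        rw [show baseK A q s * (⟨algebraMap Qb ℂ r', r', hr', rfl⟩ : constK A q) = 1 from
          Subtype.ext (by
            show algebraMap Qb ℂ r'⁻¹ * algebraMap Qb ℂ r' = 1
            rw [← map_mul, inv_mul_cancel₀ hr0, map_one]), HahnSeries.single_zero_one, one_mul]
      rw [hserO hb', map_mul, redO, HahnSeries.C_apply, coeffMap_single, hs]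
      simp
    · obtain ⟨v, hv⟩ := isUnit_iff_exists_inv.1 (isUnit_of_resO hs)
      have hrv : (v : Qb) = r' := by
        have h3 : r'⁻¹ * (v : Qb) = 1 := congrArg Subtype.val hv
        rwa [inv_mul_eq_iff_eq_mul₀ hr0, mul_one] at h3
      have hz' : ser z = serO A q (HahnSeries.C v) := by
        rw [hserC, serO, HahnSeries.C_apply, HahnSeries.C_apply, coeffMap_single]
        congr 1
        exact Subtype.ext (congrArg (algebraMap Qb ℂ) hrv.symm)
      rw [hz', ← map_mul] at hab
      refine htr (X - Polynomial.C (resO A q v)) (X_sub_C_ne_zero _) ?_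
      rw [← hserO hab, map_mul, eval₂_sub, eval₂_X, eval₂_C, mul_div_cancel_right₀ _ hb,
        redO, HahnSeries.C_apply, HahnSeries.C_apply, coeffMap_single, sub_self]

/-- The coordinate is transcendental over `ℚ̄`. -/
theorem coord_transcendental (hz : Coord A q ℓ z) {P : Qb[X]} (hP : P ≠ 0) :
    P.eval₂ qbMer (z : Mer) ≠ 0 := by
  rw [(IsAlgClosed.splits P).eq_prod_roots, eval₂_mul, eval₂_C, eval₂_multiset_prod,
    Multiset.map_map]
  refine mul_ne_zero ((_root_.map_ne_zero _).2 (leadingCoeff_ne_zero.2 hP)) (Multiset.prod_ne_zero ?_)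
  simp only [Multiset.mem_map, Function.comp_apply, eval₂_sub, eval₂_X, eval₂_C, not_exists,
    not_and]
  exact fun r _ h => coord_ne_const hz r (sub_eq_zero.1 h)

instance finite_galLvlCoord : Finite (galLvl A q (N := N) ℓ) := by
  haveI := finite_range_flHom (N := N) (K := constK A q)
  exact Finite.of_injective
    (fun x => (⟨x.1, Subgroup.map_le_range (flHom N (constK A q)) (Gamma ℓ) x.2⟩ :
      (flHom N (constK A q)).range))
    fun a b hab => Subtype.ext (congrArg (fun y : (flHom N (constK A q)).range => y.1) hab)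

theorem fixed_mem_closure_coord (hz : Coord A q ℓ z) {x : flN N (constK A q)}
    (hx : ∀ g ∈ galLvl A q (N := N) ℓ, g x = x) :
    x ∈ Subfield.closure (Set.range ((toFl (N := N)).comp rC) ∪ {z}) := by
  refine hz.closed x fun γ hγ => ?_
  have h := hx (flHom N (constK A q) γ⁻¹) ⟨γ⁻¹, inv_mem hγ, rfl⟩
  change flEquiv γ⁻¹⁻¹ x = x at h
  rwa [inv_inv, flEquiv_apply] at h

/-- Finitely many elements generate the field over the constants and the coordinate. -/
theorem exists_finset_gen (hz : Coord A q ℓ z) : ∃ s : Finset (flN N (constK A q)),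
    Subfield.closure (Set.range ((toFl (N := N)).comp rC) ∪ {z} ∪ ↑s) = ⊤ := by
  classical
  haveI := Fintype.ofFinite (galLvl A q (N := N) ℓ)
  have hw : ∀ g : galLvl A q (N := N) ℓ, ∃ x : flN N (constK A q),
      (g : flN N (constK A q) ≃+* flN N (constK A q)) ≠ 1 →
        (g : flN N (constK A q) ≃+* flN N (constK A q)) x ≠ x := fun g => by
    by_cases h : (g : flN N (constK A q) ≃+* flN N (constK A q)) = 1
    · exact ⟨0, fun h' => absurd h h'⟩
    · obtain ⟨x, hx⟩ := not_forall.1 fun h' => h (RingEquiv.ext h')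
      exact ⟨x, fun _ => hx⟩
  choose x hx using hw
  refine ⟨Finset.univ.image x, eq_top_iff.2 ?_⟩
  rw [← closure_eq_top_of_fixed_trivial (galLvl A q (N := N) ℓ)
    (↑(Finset.univ.image x) : Set (flN N (constK A q))) (fun g hg hfix => by
      by_contra h
      exact hx ⟨g, hg⟩ h (hfix _ (by simp))), Subfield.closure_le]
  rintro y (hy | hy)
  · exact Subfield.closure_mono Set.subset_union_left (fixed_mem_closure_coord hz hy)
  · exact Subfield.subset_closure (Or.inr hy)

/-- A monic polynomial over the rational functions killing an element. -/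
theorem exists_monic_closure (hz : Coord A q ℓ z) (x : flN N (constK A q)) :
    ∃ P : (Subfield.closure (Set.range ((toFl (N := N)).comp (rC (K := constK A q))) ∪ {z}))[X],
      P.Monic ∧ P.eval₂ (Subfield.subtype _) x = 0 := by
  let G := galLvl A q (N := N) ℓ
  haveI := Fintype.ofFinite G
  let inc : FixedPoints.subfield G (flN N (constK A q)) →+*
      Subfield.closure (Set.range ((toFl (N := N)).comp (rC (K := constK A q))) ∪ {z}) :=
    (Subfield.subtype _).codRestrict _ fun y => fixed_mem_closure_coord hz fun g hg => y.2 ⟨g, hg⟩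
  obtain ⟨P, hP, he⟩ := FixedPoints.isIntegral G (flN N (constK A q)) x
  refine ⟨P.map inc, hP.map inc, ?_⟩
  rw [eval₂_map]
  exact he

/-- **The field inside a finite extension of the line, with a root adjoined.** -/
theorem exists_embedding (hz : Coord A q ℓ z) {n : ℕ} (hn : n ≠ 0) (f : flN N (constK A q)) :
    ∃ (E : Type) (_ : Field E) (_ : Algebra (RatFunc Qb) E)
      (_ : FiniteDimensional (RatFunc Qb) E) (ι : flN N (constK A q) →+* E) (h : E)
      (s : Finset E),
      h ^ n = ι f ∧ ι z = algebraMap (RatFunc Qb) E RatFunc.X ∧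
      (∀ (x : Qb) (hx : x ∈ constL A q),
        ι (toFl (rC (⟨algebraMap Qb ℂ x, x, hx, rfl⟩ : constK A q))) = cst x) ∧
      ι.fieldRange = Subfield.closure (cst '' ((constL A q).toSubfield : Set Qb) ∪
        {algebraMap (RatFunc Qb) E RatFunc.X} ∪ ↑s) ∧
      ∀ a ∈ s, ∃ p : Polynomial (Subfield.closure
        (cst '' ((constL A q).toSubfield : Set Qb) ∪ {algebraMap (RatFunc Qb) E RatFunc.X})),
        p ≠ 0 ∧ p.eval₂ (Subfield.subtype _) a = 0 := by
  classical
  let Ω := AlgebraicClosure Mer
  let emb : flN N (constK A q) →+* Ω := (algebraMap Mer Ω).comp (Subfield.subtype _)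
  let kc : Qb →+* Ω := (algebraMap Mer Ω).comp qbMer
  let ev : Qb[X] →+* Ω := eval₂RingHom kc (emb z)
  have hev : ∀ P : Qb[X], P ≠ 0 → ev P ≠ 0 := fun P hP => by
    show P.eval₂ ((algebraMap Mer Ω).comp qbMer) (algebraMap Mer Ω (z : Mer)) ≠ 0
    rw [← hom_eval₂, _root_.map_ne_zero]
    exact coord_transcendental hz hP
  let Φ : RatFunc Qb →+* Ω := RatFunc.liftRingHom ev fun P hP =>
    mem_nonZeroDivisors_iff_ne_zero.2 (hev P (nonZeroDivisors.ne_zero hP))
  letI : Algebra (RatFunc Qb) Ω := Φ.toAlgebra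
  have hΦX : algebraMap (RatFunc Qb) Ω RatFunc.X = emb z := by
    show Φ RatFunc.X = emb z
    rw [← RatFunc.algebraMap_X, RatFunc.liftRingHom_algebraMap]
    exact eval₂_X _ _
  have hΦC : ∀ x, algebraMap (RatFunc Qb) Ω (RatFunc.C x) = kc x := fun x => by
    show Φ (RatFunc.C x) = kc x
    rw [← RatFunc.algebraMap_C, RatFunc.liftRingHom_algebraMap]
    exact eval₂_C _ _
  have hgen : ∀ y ∈ Subfield.closure (Set.range ((toFl (N := N)).comp (rC (K := constK A q))) ∪ {z}),
      emb y ∈ (algebraMap (RatFunc Qb) Ω).fieldRange := by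
    intro y hy
    refine (Subfield.closure_le (t := Subfield.comap emb (algebraMap (RatFunc Qb) Ω).fieldRange)).2
      ?_ hy
    rintro _ (⟨⟨c, x, hx, rfl⟩, rfl⟩ | rfl)
    · exact ⟨RatFunc.C x, hΦC x⟩
    · exact ⟨RatFunc.X, hΦX⟩
  have hint : ∀ x, IsIntegral (RatFunc Qb) (emb x) := fun x => by
    obtain ⟨P, hP, he⟩ := exists_monic_closure hz x
    have hl : P.map (emb.comp (Subfield.subtype _)) ∈ lifts (algebraMap (RatFunc Qb) Ω) := by
      rw [lifts_iff_coeff_lifts]
      intro i
      rw [coeff_map]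
      exact hgen _ (P.coeff i).2
    obtain ⟨Q, hQ, -, hQm⟩ := lifts_and_degree_eq_and_monic hl (hP.map _)
    refine ⟨Q, hQm, ?_⟩
    rw [← eval_map, hQ, eval_map, ← hom_eval₂, he, map_zero]
  obtain ⟨h, hh⟩ := IsAlgClosed.exists_pow_nat_eq (emb f) (Nat.pos_of_ne_zero hn)
  obtain ⟨S, hS⟩ := exists_finset_gen hz
  set T : Finset Ω := insert h (S.image emb) with hT
  let E := IntermediateField.adjoin (RatFunc Qb) (T : Set Ω)
  haveI : FiniteDimensional (RatFunc Qb) E :=
    IntermediateField.finiteDimensional_adjoin fun x hx => by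
      rcases Finset.mem_insert.1 (Finset.mem_coe.1 hx) with rfl | hx
      · exact IsIntegral.of_pow (Nat.pos_of_ne_zero hn) (hh ▸ hint f)
      · obtain ⟨y, -, rfl⟩ := Finset.mem_image.1 hx
        exact hint y
  have hmem : ∀ x, emb x ∈ E.toSubfield := fun x => by
    have hx : x ∈ (⊤ : Subfield (flN N (constK A q))) := Subfield.mem_top x
    rw [← hS] at hx
    refine (Subfield.closure_le (t := Subfield.comap emb E.toSubfield)).2 ?_ hx
    rintro y (hy | hy)
    · obtain ⟨r, hr⟩ := hgen y (Subfield.subset_closure hy)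
      show emb y ∈ E
      rw [← hr]
      exact E.algebraMap_mem r
    · exact IntermediateField.subset_adjoin _ _ (Finset.mem_coe.2
        (Finset.mem_insert_of_mem (Finset.mem_image_of_mem _ (Finset.mem_coe.1 hy))))
  let ι : flN N (constK A q) →+* E := emb.codRestrict E.toSubfield hmem
  have hιz : ι z = algebraMap (RatFunc Qb) E RatFunc.X := Subtype.ext hΦX.symm
  have hιc : ∀ (x : Qb) (hx : x ∈ constL A q),
      ι (toFl (rC (⟨algebraMap Qb ℂ x, x, hx, rfl⟩ : constK A q))) = cst x :=
    fun x hx => Subtype.ext (hΦC x).symm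
  have himg : ι '' (Set.range ((toFl (N := N)).comp (rC (K := constK A q))) ∪ {z}) =
      cst '' ((constL A q).toSubfield : Set Qb) ∪ {algebraMap (RatFunc Qb) E RatFunc.X} := by
    rw [Set.image_union, Set.image_singleton, hιz]
    congr 1
    ext y
    constructor
    · rintro ⟨_, ⟨⟨c, x, hx, rfl⟩, rfl⟩, rfl⟩
      exact ⟨x, hx, (hιc x hx).symm⟩
    · rintro ⟨x, hx, rfl⟩
      exact ⟨_, ⟨⟨_, x, hx, rfl⟩, rfl⟩, hιc x hx⟩
  refine ⟨E, inferInstance, inferInstance, inferInstance, ι,
    ⟨h, IntermediateField.subset_adjoin _ _ (Finset.mem_coe.2 (Finset.mem_insert_self _ _))⟩,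
    S.image ι, Subtype.ext hh, hιz, hιc, ?_, fun a ha => ?_⟩
  · rw [RingHom.fieldRange_eq_map, ← hS, RingHom.map_field_closure, Set.image_union, himg,
      Finset.coe_image]
  · obtain ⟨x, -, rfl⟩ := Finset.mem_image.1 ha
    obtain ⟨P, hP, he⟩ := exists_monic_closure hz x
    let B := Subfield.closure
      (cst '' ((constL A q).toSubfield : Set Qb) ∪ {algebraMap (RatFunc Qb) E RatFunc.X})
    let κ : Subfield.closure (Set.range ((toFl (N := N)).comp (rC (K := constK A q))) ∪ {z}) →+* B :=
      (ι.comp (Subfield.subtype _)).codRestrict B fun y => by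
        show ι (y : flN N (constK A q)) ∈ Subfield.closure _
        rw [← himg, ← RingHom.map_field_closure]
        exact ⟨y, y.2, rfl⟩
    refine ⟨P.map κ, (hP.map κ).ne_zero, ?_⟩
    rw [eval₂_map]
    show P.eval₂ (ι.comp (Subfield.subtype _)) (ι x) = 0
    rw [← hom_eval₂, he, map_zero]

end FA.Carayol

end
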