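import Fermat.Agent.Carayol.Assembly.Branch
import Fermat.Agent.Carayol.Const.Main

/-!
# Elements with power near a constant are near a constant
-/

set_option autoImplicit false
set_option linter.unusedSectionVars false
set_option linter.style.haveILetI false

noncomputable section

namespace FA.Carayol

open FA.Level FA.JTorsion FA.Mazur.Wp

local notation "Qb" => AlgebraicClosure ℚ

variable [Algebra Qb ℂ] {A : ValuationSubring Qb} {q N : ℕ} [hq : Fact q.Prime] [NeZero N]
  {ϖ : OL A q} {z : flN N (constK A q)}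

/-- A primitive root of unity among the integral constants. -/
theorem exists_primitive_OL {m : ℕ} (hA : A.LiesOverPrime q) (hm : m ≠ 0) (hqm : ¬ q ∣ m) {n : ℕ}
    (hn : n ≠ 0) (hqn : ¬ q ∣ n) : ∃ ζ : OL A q, IsPrimitiveRoot ζ n := by
  obtain ⟨ζ, hζL, hζ⟩ := (constHolds q A hA m hm hqm).roots_prime n hn hqn
  have hv : A.valuation ζ = 1 := by
    have h1 := congrArg A.valuation hζ.pow_eq_one
    rw [map_pow, map_one] at h1
    exact (pow_eq_one_iff.1 h1).resolve_right hn
  exact ⟨⟨ζ, (A.valuation_le_one_iff _).1 hv.le, hζL⟩,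
    IsPrimitiveRoot.of_map_of_injective (f := (OL A q).subtype) hζ Subtype.val_injective⟩

theorem pow_sub_one_eq_prod {R : Type*} [CommRing R] {n : ℕ} (hn : n ≠ 0) {ζ : OL A q}
    (hζ : IsPrimitiveRoot ζ n) (ψ : OL A q →+* R) (y : R) :
    y ^ n - 1 = ∏ μ ∈ Polynomial.nthRootsFinset n (1 : OL A q), (y - ψ μ) := by
  have h := congrArg (Polynomial.eval₂ ψ y)
    (Polynomial.X_pow_sub_one_eq_prod (Nat.pos_of_ne_zero hn) hζ)
  simpa [Polynomial.eval₂_finsetProd] using h

/-- The roots of unity of the residues lift. -/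
theorem exists_root_lift {n : ℕ} (hn : n ≠ 0) {ζ : OL A q} (hζ : IsPrimitiveRoot ζ n)
    {r : IsLocalRing.ResidueField A} (hr : r ^ n = 1) : ∃ μ : OL A q, μ ^ n = 1 ∧ resO A q μ = r := by
  have h := pow_sub_one_eq_prod hn hζ (resO A q) r
  rw [hr, sub_self, eq_comm, Finset.prod_eq_zero_iff] at h
  obtain ⟨μ, hμ, he⟩ := h
  exact ⟨μ, (Polynomial.mem_nthRootsFinset (Nat.pos_of_ne_zero hn) 1).1 hμ, (sub_eq_zero.1 he).symm⟩

/-- An element with power near a constant is near a constant. -/
theorem IsVertF.exists_const_near {W : ValuationSubring (flN N (constK A q))}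
    (hW : IsVertF A q ϖ z W) (hC : ConstHyp A (constL A q).toSubfield ϖ) {n : ℕ} (hn : n ≠ 0)
    {ζ : OL A q} (hζ : IsPrimitiveRoot ζ n) {x : flN N (constK A q)} {c : OL A q}
    (hx : W.valuation (x ^ n - cF A q N c) < 1) :
    ∃ a : OL A q, W.valuation (x - cF A q N a) < 1 := by
  have hxn : x ^ n ∈ W := by
    have := add_mem ((W.valuation_le_one_iff _).1 hx.le) (hW.cF_facts hC c).1
    rwa [sub_add_cancel] at this
  by_cases hc : resO A q c = 0
  · refine ⟨0, ?_⟩
    rw [map_zero, sub_zero]
    have h1 : W.valuation (x ^ n) < 1 := by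
      rw [← sub_add_cancel (x ^ n) (cF A q N c)]
      exact Valuation.map_add_lt _ hx ((hW.cF_facts hC c).2.2 hc)
    rw [map_pow] at h1
    exact (pow_lt_one_iff hn).1 h1
  · haveI := FA.CurveRed.isAlgClosed_residueField A
    obtain ⟨w, hw⟩ := exists_resO_root hC hn c
    have hwu : IsUnit w := isUnit_of_resO fun h0 => hc (by rw [← hw, h0, zero_pow hn])
    have hcw : W.valuation (x ^ n - cF A q N w ^ n) < 1 := by
      rw [show x ^ n - cF A q N w ^ n = (x ^ n - cF A q N c) + cF A q N (c - w ^ n) by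
        rw [map_sub, map_pow]; ring]
      exact Valuation.map_add_lt _ hx ((hW.cF_facts hC _).2.2 (by
        rw [map_sub, map_pow, hw, sub_self]))
    have hwv : W.valuation (cF A q N w) = 1 := hW.cF_unit hwu
    have hy : W.valuation ((x / cF A q N w) ^ n - 1) < 1 := by
      rw [div_pow]
      exact near_div (by rw [map_pow, hwv, one_pow]) hcw
    rw [pow_sub_one_eq_prod hn hζ (cF A q N), map_prod] at hy
    obtain ⟨μ, -, hμ⟩ : ∃ μ ∈ Polynomial.nthRootsFinset n (1 : OL A q),
        W.valuation (x / cF A q N w - cF A q N μ) < 1 := by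
      by_contra hcon
      push Not at hcon
      exact hy.not_ge (Finset.one_le_prod' hcon)
    refine ⟨w * μ, ?_⟩
    have hw0 : cF A q N w ≠ 0 := (map_ne_zero_iff _ cF_inj).2 hwu.ne_zero
    rw [map_mul, show x - cF A q N w * cF A q N μ =
      cF A q N w * (x / cF A q N w - cF A q N μ) by field_simp, map_mul, hwv, one_mul]
    exact hμ

end FA.Carayol

end
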