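import Fermat.Agent.Carayol.Assembly.Classes
import Fermat.Agent.Carayol.Assembly.Flat

/-!
# Compatible roots at the points of the special fibre
-/

set_option autoImplicit false
set_option linter.unusedSectionVars false
set_option linter.style.haveILetI false
set_option synthInstance.maxHeartbeats 200000
set_option maxHeartbeats 800000

noncomputable section

namespace FA.Carayol

open CongruenceSubgroup FA.Level FA.JTorsion FA.Mazur.Wp
open scoped MatrixGroups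

local notation "Qb" => AlgebraicClosure ℚ

variable [Algebra Qb ℂ] {A : ValuationSubring Qb} {q N : ℕ} [NeZero N] {ϖ : OL A q}
  {z : flN N (constK A q)}

theorem IsPow.valuation_eq {F : Type*} [Field F] {W : ValuationSubring F} {n : ℕ} (hn : n ≠ 0)
    {x : F} (hx : IsPow W n x) : ∃ y : F, y ≠ 0 ∧ W.valuation x = W.valuation y ^ n := by
  obtain ⟨y, hy⟩ := hx
  have h0 : y ≠ 0 := fun h0 => near_ne_zero hy (by rw [h0, zero_pow hn, div_zero])
  refine ⟨y, h0, ?_⟩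
  have h1 := near_val_one hy
  rwa [map_div₀, map_pow, div_eq_one_iff_eq (pow_ne_zero n ((Valuation.ne_zero_iff _).2 h0))] at h1

theorem IsPow.prod {F : Type*} [Field F] {W : ValuationSubring F} {n : ℕ} {β : Type*}
    (s : Finset β) {x : β → F} (hx : ∀ i ∈ s, IsPow W n (x i)) : IsPow W n (∏ i ∈ s, x i) := by
  classical
  induction s using Finset.induction with
  | empty => rw [Finset.prod_empty]; exact IsPow.of_near near_one_one
  | @insert i s hi ih =>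
    rw [Finset.prod_insert hi]
    exact (hx i (Finset.mem_insert_self _ _)).mul (ih fun j hj => hx j (Finset.mem_insert_of_mem hj))

/-- The ratio of a root and a local root is regular on the branch and nonzero. -/
theorem inBr_ratio {p : Pt A q z} (hC : ConstHyp A (constL A q).toSubfield ϖ) (hp : IsPtF ϖ p)
    (hL : PtLocal ϖ p) {W : ValuationSubring (flN N (constK A q))} (hW : IsVertF A q ϖ z W)
    (hT : Thru p W) {n : ℕ} (hn : n ≠ 0) {f y π : flN N (constK A q)} (hπ : π ≠ 0)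
    {b c : ptChart A q p} (hb : b ∉ p.2) (hc : c ∉ p.2)
    (he : f * c = π ^ n * (b : flN N (constK A q))) (hy : W.valuation (f / y ^ n - 1) < 1) :
    InBr p W (y / π) ∧ brVal hC hp hL W (y / π) ≠ 0 := by
  have hf : f ≠ 0 := fun h0 => near_ne_zero hy (by rw [h0, zero_div])
  have hy0 : y ≠ 0 := fun h0 => near_ne_zero hy (by rw [h0, zero_pow hn, div_zero])
  obtain ⟨h1, hv1⟩ := inBr_loc hC hp hL hW hT hc (x := f / π ^ n) (a := b) (by
    rw [div_mul_eq_mul_div, he, mul_div_cancel_left₀ _ (pow_ne_zero n hπ)])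
  obtain ⟨h2, hv2⟩ := inBr_congr hC hp hL hW hT (inBr_chart hC hp hL hW hT 1).1
    (y := (f / y ^ n)⁻¹) (by simpa using near_inv hy)
  obtain ⟨h3, hv3⟩ := inBr_mul hC hp hL hW hT h1 h2
  have e : (y / π) ^ n = f / π ^ n * (f / y ^ n)⁻¹ := by rw [div_pow, inv_div]; field_simp
  rw [← e] at h3 hv3
  have h4 := inBr_root hC hp hL hW hT hn h3
  refine ⟨h4, fun h0 => ?_⟩
  rw [(inBr_pow hC hp hL hW hT h4 n).2, h0, zero_pow hn, hv1, hv2,
    (inBr_chart hC hp hL hW hT 1).2, map_one, mul_one, eq_comm, div_eq_zero_iff] at hv3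
  rcases hv3 with h | h
  · exact hb ((ptRes_eq_zero hC hp hL).1 h)
  · exact hc ((ptRes_eq_zero hC hp hL).1 h)

section data

variable [hq : Fact q.Prime] {m : ℕ} {ss : Set (Pt A q z)}
  {W : Pt A q z → Option (ZMod q) → ValuationSubring (flN N (constK A q))}
  (hC : ConstHyp A (constL A q).toSubfield ϖ) (hL : ∀ p : Pt A q z, IsPtF ϖ p → PtLocal ϖ p)
  (hD : LineData ϖ z m ss W)

/-- The branches at the points on several components. -/
def branchData {n : ℕ} (hn : n ≠ 0) {ζ : OL A q} (hζ : IsPrimitiveRoot ζ n) :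
    BranchData (flN N (constK A q)) (IsLocalRing.ResidueField A) n ss (Option (ZMod q)) where
  W p l := W p.1 l
  br p l := brRing hC (hD.isPt _ p.2) (hL _ (hD.isPt _ p.2)) (hD.isVert _ p.2 l).1
    (hD.isVert _ p.2 l).2
  ev p l := brEv hC (hD.isPt _ p.2) (hL _ (hD.isPt _ p.2)) (hD.isVert _ p.2 l).1
    (hD.isVert _ p.2 l).2
  loc p := locRing (hD.isPt _ p.2)
  loc_le p l := fun x ⟨a, c, hc, he⟩ => (inBr_loc hC (hD.isPt _ p.2) (hL _ (hD.isPt _ p.2))
    (hD.isVert _ p.2 l).1 (hD.isVert _ p.2 l).2 hc he).1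
  ev_loc p l l' x hx := by
    obtain ⟨a, c, hc, he⟩ := hx
    exact ((inBr_loc hC (hD.isPt _ p.2) (hL _ (hD.isPt _ p.2)) (hD.isVert _ p.2 l).1
      (hD.isVert _ p.2 l).2 hc he).2).trans (inBr_loc hC (hD.isPt _ p.2) (hL _ (hD.isPt _ p.2))
      (hD.isVert _ p.2 l').1 (hD.isVert _ p.2 l').2 hc he).2.symm
  ev_unit p l x hx :=
    ⟨(inBr_of_small hC (hD.isPt _ p.2) (hL _ (hD.isPt _ p.2)) (hD.isVert _ p.2 l).1
      (hD.isVert _ p.2 l).2 hx).1, (inBr_of_small hC (hD.isPt _ p.2) (hL _ (hD.isPt _ p.2))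
      (hD.isVert _ p.2 l).1 (hD.isVert _ p.2 l).2 hx).2⟩
  br_le p l x hx := hx.1
  root p l x _ hxn := inBr_root hC (hD.isPt _ p.2) (hL _ (hD.isPt _ p.2)) (hD.isVert _ p.2 l).1
    (hD.isVert _ p.2 l).2 hn hxn
  loc_root p x hx := inLoc_root hC (hD.isPt _ p.2) (hL _ (hD.isPt _ p.2)) hn hx
  loc_inv p l x hx hne := by
    obtain ⟨a, c, hc, he⟩ := hx
    have ha : a ∉ p.1.2 := fun ha => hne (by
      refine (inBr_loc hC (hD.isPt _ p.2) (hL _ (hD.isPt _ p.2)) (hD.isVert _ p.2 l).1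
        (hD.isVert _ p.2 l).2 hc he).2.trans ?_
      rw [(ptRes_eq_zero hC (hD.isPt _ p.2) (hL _ (hD.isPt _ p.2))).2 ha, zero_div])
    refine ⟨c, a, ha, ?_⟩
    rw [← he]
    rcases eq_or_ne x 0 with h0 | h0
    · exfalso
      subst h0
      exact hne (map_zero (brEv hC (hD.isPt _ p.2) (hL _ (hD.isPt _ p.2)) (hD.isVert _ p.2 l).1
        (hD.isVert _ p.2 l).2))
    · rw [inv_mul_cancel_left₀ h0]
  comp p p' l l' h := hD.comp _ p.2 _ p'.2 l l' h
  line p p' l l' h := hD.line _ p.2 _ p'.2 l l' h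
  C := (cF A q N).range
  C_le p := by
    rintro _ ⟨a, rfl⟩
    exact ⟨cChart p.1 a, 1, (Ideal.ne_top_iff_one _).1 (hD.isPt _ p.2).1.ne_top, by simp [cChart]⟩
  flat p p' l hWW x hx hx' c hc hxc := by
    obtain ⟨c₀, rfl⟩ := hc
    obtain ⟨a, ha⟩ := (hD.isVert _ p.2 l).1.exists_const_near hC hn hζ hxc
    have key : ∀ (r : ss) (hr : (W r.1 l).valuation (x - cF A q N a) < 1),
        brVal hC (hD.isPt _ r.2) (hL _ (hD.isPt _ r.2)) (W r.1 l) x = resO A q a := fun r hr => by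
      rw [(inBr_congr hC (hD.isPt _ r.2) (hL _ (hD.isPt _ r.2)) (hD.isVert _ r.2 l).1
        (hD.isVert _ r.2 l).2 (inBr_chart hC (hD.isPt _ r.2) (hL _ (hD.isPt _ r.2))
        (hD.isVert _ r.2 l).1 (hD.isVert _ r.2 l).2 (cChart r.1 a)).1 (y := x) hr).2]
      exact (inBr_chart hC (hD.isPt _ r.2) (hL _ (hD.isPt _ r.2))
        (hD.isVert _ r.2 l).1 (hD.isVert _ r.2 l).2 (cChart r.1 a)).2.trans
        (ptRes_cChart hC (hD.isPt _ r.2) (hL _ (hD.isPt _ r.2)) a)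
    exact (key p ha).trans (key p' (hWW ▸ ha)).symm
  lift r hr := by
    obtain ⟨μ, hμ, hμr⟩ := exists_root_lift hn hζ hr
    refine ⟨cF A q N μ, ⟨μ, rfl⟩, by rw [← map_pow, hμ, map_one], fun p l h => ?_⟩
    exact ((inBr_chart hC (hD.isPt _ p.2) (hL _ (hD.isPt _ p.2)) (hD.isVert _ p.2 l).1
      (hD.isVert _ p.2 l).2 (cChart p.1 μ)).2.trans
      (ptRes_cChart hC (hD.isPt _ p.2) (hL _ (hD.isPt _ p.2)) μ)).trans hμr

theorem branchData_val {n : ℕ} (hn : n ≠ 0) {ζ : OL A q} (hζ : IsPrimitiveRoot ζ n) (p : ss)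
    (l : Option (ZMod q)) {x : flN N (constK A q)} (hx : InBr p.1 (W p.1 l) x) :
    (branchData hC hL hD hn hζ).val p l x =
      brVal hC (hD.isPt _ p.2) (hL _ (hD.isPt _ p.2)) (W p.1 l) x :=
  BranchData.val_eq (B := branchData hC hL hD hn hζ) (m := p) (l := l) hx

theorem branchData_isSym {n : ℕ} (hn : n ≠ 0) {ζ : OL A q} (hζ : IsPrimitiveRoot ζ n)
    {φ : flN N (constK A q) ≃+* flN N (constK A q)} {σ : Equiv.Perm (Option (ZMod q))}
    (h : ∀ p ∈ ss, FixesPt φ p ∧ ∀ l x, (W p l).valuation x < 1 →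
      (W p (σ l)).valuation (φ x) < 1) : (branchData hC hL hD hn hζ).IsSym φ σ where
  small p l x hx := (h _ p.2).2 l x hx
  br_map p l x hx := by
    obtain ⟨h1, h2⟩ := inBr_map hC (hD.isPt _ p.2) (hL _ (hD.isPt _ p.2)) (hD.isVert _ p.2 l).1
      (hD.isVert _ p.2 l).2 (h _ p.2).1 (hD.isVert _ p.2 (σ l)).1 (hD.isVert _ p.2 (σ l)).2
      (fun y hy => (h _ p.2).2 l y hy) hx
    exact ⟨h1, by rw [branchData_val hC hL hD hn hζ p _ h1, branchData_val hC hL hD hn hζ p _ hx, h2]⟩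
  loc_map p x hx := by
    obtain ⟨a, c, hc, he⟩ : InLoc p.1 x := hx
    obtain ⟨a', ha', -⟩ := (h _ p.2).1 a
    obtain ⟨c', hc', hcc⟩ := (h _ p.2).1 c
    refine ⟨a', c', fun hm => hc (by simpa using Ideal.sub_mem _ hm hcc), ?_⟩
    rw [hc', ha', ← map_mul, he]

end data

variable [hq : Fact q.Prime] {m ℓ M' n : ℕ} {W₀ : ValuationSubring (flN N (constK A q))}

/-- **Compatible roots of a power.** -/
theorem exists_compatible_roots (hC : ConstHyp A (constL A q).toSubfield ϖ)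
    (hV : VertFacts A q ℓ ϖ z W₀) (hP : PtsHolds ϖ z m) (hℓ : ℓ ∣ m) (hM : (M' : ZMod q) ≠ 0)
    (hMm : M' ∣ m) (hn : n ≠ 0) {ζ : OL A q} (hζ : IsPrimitiveRoot ζ n)
    {f : flN N (constK A q)} (hf : NormFun A q M' n f)
    (hpow : ∀ g ∈ Gamma ℓ, IsPow W₀ n (flAct g f)) :
    ∃ g : ValuationSubring (flN N (constK A q)) → flN N (constK A q),
      (∀ V, IsVertF A q ϖ z V →
        g V ≠ 0 ∧ V.valuation (f ^ (q * q - 1) / g V ^ n - 1) < 1) ∧
      ∀ (p : Pt A q z) (hp : IsPtF ϖ p), ∃ π : flN N (constK A q), π ≠ 0 ∧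
        (∃ b c : ptChart A q p, b ∉ p.2 ∧ c ∉ p.2 ∧
          f ^ (q * q - 1) * c = π ^ n * (b : flN N (constK A q))) ∧
        ∃ a : OL A q, resO A q a ≠ 0 ∧ ∀ V, IsVertF A q ϖ z V → Thru p V →
          InBr p V (g V / π) ∧ brVal hC hp (hP.1 p hp) V (g V / π) = resO A q a := by
  classical
  obtain ⟨hL, ss, W, hD⟩ := hP
  set e := q * q - 1 with he
  -- roots at the components
  have hvp : ∀ V, IsVertF A q ϖ z V → IsPow V n f := fun V hV' => by
    obtain ⟨γ, hγ, hmem⟩ := hV.orbit V hV'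
    exact IsPow.of_mem_iff (φ := flEquiv γ) hmem (hpow γ hγ)
  choose! a ha using hvp
  -- roots at the points
  have hpt : ∀ p : Pt A q z, IsPtF ϖ p → ∃ π : flN N (constK A q), π ≠ 0 ∧ ∃ b c : ptChart A q p,
      b ∉ p.2 ∧ c ∉ p.2 ∧ f * (c : flN N (constK A q)) = π ^ n * (b : flN N (constK A q)) := fun p hp => by
    refine (hL p hp).root n hn f hf.ne_zero fun V _ hV' => ?_
    rcases hV' with h | h
    · exact hf.horiz V h
    · exact IsPow.valuation_eq hn ⟨a V, ha V h⟩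
  choose π hπ b c hb hc hbc using hpt
  set B := branchData hC hL hD hn hζ
  set piSS : ss → flN N (constK A q) := fun p => π p.1 (hD.isPt _ p.2)
  have H : B.Roots f a piSS := by
    have hloc : ∀ p : ss, f / piSS p ^ n * (c p.1 (hD.isPt _ p.2) : flN N (constK A q)) =
        (b p.1 (hD.isPt _ p.2) : flN N (constK A q)) := fun p => by
      rw [div_mul_eq_mul_div, hbc, mul_div_cancel_left₀ _ (pow_ne_zero n (hπ _ _))]
    refine ⟨hn, fun p l => ha _ (hD.isVert _ p.2 l).1, fun p => ?_, fun p l => ?_⟩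
    · exact ⟨b p.1 (hD.isPt _ p.2), c p.1 (hD.isPt _ p.2), hc _ _, hloc p⟩
    · obtain ⟨h1, h2⟩ := inBr_loc hC (hD.isPt _ p.2) (hL _ (hD.isPt _ p.2)) (hD.isVert _ p.2 l).1
        (hD.isVert _ p.2 l).2 (hc _ (hD.isPt _ p.2)) (hloc p)
      rw [branchData_val hC hL hD hn hζ p l h1, h2]
      exact div_ne_zero (fun h => hb _ _ ((ptRes_eq_zero hC _ _).1 h))
        (fun h => hc _ _ ((ptRes_eq_zero hC _ _).1 h))
  -- the symmetries
  have hscale : ∀ (t : ZMod q) (ht : t ≠ 0), ∃ φ : flN N (constK A q) ≃+* flN N (constK A q),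
      B.IsSym φ (scaleLine t ht) ∧ φ f = f := fun t ht => by
    obtain ⟨φ, hφ, h⟩ := hD.scale t ht
    exact ⟨φ, branchData_isSym hC hL hD hn hζ h, hφ f hf.coeff⟩
  have htrace : ∀ (U : ℕ → SL(2, ℤ)), (∀ i, U i ∈ Gamma ℓ) → ∀ (c₀ : constK A q), c₀ ≠ 0 →
      ∀ y : flN N (constK A q),
      ∏ i ∈ Finset.range q, flAct (U i) f = toFl (rC c₀) * y ^ n →
      ∃ c y : flN N (constK A q), c ∈ B.C ∧ c ≠ 0 ∧ c⁻¹ ∈ B.C ∧
        ∏ i ∈ Finset.range q, flEquiv (U i) f = c * y ^ n := by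
    intro U hU c₀ hc₀ y hy
    obtain ⟨Y, hY, hvY⟩ := (IsPow.prod (Finset.range q) fun i _ => hpow (U i) (hU i)).valuation_eq hn
    rw [hy] at hvY
    obtain ⟨u, hu, i, hci⟩ := hV.infty.exists_unit_trace hC hc₀ hn hvY hY
    obtain ⟨v, hv⟩ := isUnit_iff_exists_inv.1 hu
    refine ⟨cF A q N u, cF A q N ϖ ^ i * y, ⟨u, rfl⟩, (map_ne_zero_iff _ cF_inj).2 hu.ne_zero,
      ⟨v, eq_inv_of_mul_eq_one_right (by rw [← map_mul, hv, map_one])⟩, ?_⟩
    simp only [flEquiv_apply]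
    rw [hy, hci, mul_pow, mul_assoc]
  have hℓk : ∀ {k : ℤ}, (m : ℤ) ∣ k → (ℓ : ℤ) ∣ k := fun hk =>
    dvd_trans (Int.natCast_dvd_natCast.2 hℓ) hk
  have hup : ∃ φ : ℕ → flN N (constK A q) ≃+* flN N (constK A q),
      (∀ i ∈ Finset.range q, B.IsSym (φ i) (upLine (i : ZMod q))) ∧
      ∃ c y : flN N (constK A q), c ∈ B.C ∧ c ≠ 0 ∧ c⁻¹ ∈ B.C ∧
        ∏ i ∈ Finset.range q, φ i f = c * y ^ n := by
    choose k hk hkt hks using fun i : ℕ => hD.up (i : ZMod q)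
    obtain ⟨c₀, hc₀, y, hy⟩ := hf.up
    refine ⟨fun i => flEquiv (upU (k i)), fun i _ => branchData_isSym hC hL hD hn hζ (hks i),
      htrace (fun i => upU (k i)) (fun i => upU_mem_of_dvd (hℓk (hk i))) c₀ hc₀ y ?_⟩
    rw [hf.prod_up one_ne_zero k fun i => by rw [hkt, one_mul]]
    exact hy
  have hlow : ∃ φ : ℕ → flN N (constK A q) ≃+* flN N (constK A q),
      (∀ i ∈ Finset.range q, B.IsSym (φ i) (lowLine (i : ZMod q))) ∧
      ∃ c y : flN N (constK A q), c ∈ B.C ∧ c ≠ 0 ∧ c⁻¹ ∈ B.C ∧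
        ∏ i ∈ Finset.range q, φ i f = c * y ^ n := by
    choose k hk hkt hks using fun i : ℕ => hD.low (i : ZMod q)
    obtain ⟨c₀, hc₀, y, hy⟩ := hf.low
    refine ⟨fun i => flEquiv (lowU (k i)), fun i _ => branchData_isSym hC hL hD hn hζ (hks i),
      htrace (fun i => lowU (k i)) (fun i => lowU_mem_of_dvd (hℓk (hk i))) c₀ hc₀ y ?_⟩
    rw [hf.prod_low hM one_ne_zero k (fun i => by rw [hkt, one_mul])
      fun i => dvd_trans (Int.natCast_dvd_natCast.2 hMm) (hk i)]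
    exact hy
  obtain ⟨a', hA', hcomp⟩ := H.exists_compatible none (H.killed hscale hup hlow)
  let g : ValuationSubring (flN N (constK A q)) → flN N (constK A q) := fun V =>
    if ∃ p ∈ ss, ∃ l, W p l = V then a' V else a V ^ e
  have hg : ∀ V, IsVertF A q ϖ z V → g V ≠ 0 ∧ V.valuation (f ^ e / g V ^ n - 1) < 1 := by
    intro V hV'
    have key : ∀ y, V.valuation (f ^ e / y ^ n - 1) < 1 →
        y ≠ 0 ∧ V.valuation (f ^ e / y ^ n - 1) < 1 := fun y hy =>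
      ⟨fun h0 => near_ne_zero hy (by rw [h0, zero_pow hn, div_zero]), hy⟩
    simp only [g]
    split_ifs with hVs
    · obtain ⟨p, hp, l, rfl⟩ := hVs
      exact key _ (hA'.root ⟨p, hp⟩ l)
    · refine key _ ?_
      rw [← pow_mul, mul_comm, pow_mul, ← div_pow]
      exact near_pow (ha V hV') e
  refine ⟨g, hg, fun p hp => ?_⟩
  have hpe : f ^ e * ((c p hp ^ e : ptChart A q p) : flN N (constK A q)) =
      (π p hp ^ e) ^ n * ((b p hp ^ e : ptChart A q p) : flN N (constK A q)) := by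
    push_cast
    rw [← mul_pow, hbc, mul_pow, ← pow_mul, ← pow_mul, mul_comm e n]
  have hbe : b p hp ^ e ∉ p.2 := fun h => hb p hp (hp.1.isPrime.mem_of_pow_mem e h)
  have hce : c p hp ^ e ∉ p.2 := fun h => hc p hp (hp.1.isPrime.mem_of_pow_mem e h)
  have hratio := fun V (hV' : IsVertF A q ϖ z V) (hT : Thru p V) =>
    inBr_ratio hC hp (hL p hp) hV' hT hn (pow_ne_zero e (hπ p hp)) hbe hce hpe (hg V hV').2
  refine ⟨π p hp ^ e, pow_ne_zero e (hπ p hp), ⟨_, _, hbe, hce, hpe⟩, ?_⟩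
  by_cases hex : ∃ V, IsVertF A q ϖ z V ∧ Thru p V
  swap
  · exact ⟨1, by rw [map_one]; exact one_ne_zero, fun V h1 h2 => absurd ⟨V, h1, h2⟩ hex⟩
  obtain ⟨V₁, hV₁, hT₁⟩ := hex
  obtain ⟨r, hr⟩ := resO_surj hC (brVal hC hp (hL p hp) V₁ (g V₁ / π p hp ^ e))
  refine ⟨r, by rw [hr]; exact (hratio V₁ hV₁ hT₁).2, fun V hV' hT => ⟨(hratio V hV' hT).1, ?_⟩⟩
  rw [hr]
  by_cases hps : p ∈ ss
  · obtain ⟨l, rfl⟩ := hD.cover p hps V hV' hT
    obtain ⟨l₁, rfl⟩ := hD.cover p hps V₁ hV₁ hT₁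
    have hgl : ∀ l', g (W p l') = a' (W p l') := fun l' => if_pos ⟨p, hps, l', rfl⟩
    have hd : ∀ l', Thru p (W p l') → brVal hC hp (hL p hp) (W p l') (g (W p l') / π p hp ^ e) =
        B.dval a' (fun p => piSS p ^ e) ⟨p, hps⟩ none := fun l' hT' => by
      rw [← hcomp ⟨p, hps⟩ l', BranchData.dval,
        show B.W ⟨p, hps⟩ l' = W p l' from rfl, ← hgl l']
      exact (branchData_val hC hL hD hn hζ ⟨p, hps⟩ l'
        (hratio _ (hD.isVert p hps l').1 hT').1).symm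
    rw [hd l hT, hd l₁ hT₁]
  · rw [hD.unique p hp hps V V₁ hV' hV₁ hT hT₁]

end FA.Carayol

end
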