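import Fermat.Agent.Carayol.Assembly.Field
import Fermat.Agent.Carayol.Assembly.Roots
import Fermat.Agent.Carayol.Glue.Main

/-!
# The power with compatible roots is an `n`-th power
-/

set_option autoImplicit false
set_option linter.unusedSectionVars false
set_option linter.style.haveILetI false
set_option synthInstance.maxHeartbeats 200000
set_option maxHeartbeats 800000

noncomputable section

namespace FA.Carayol

open FA.Level FA.JTorsion FA.Mazur.Wp

local notation "Qb" => AlgebraicClosure ℚ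

variable [Algebra Qb ℂ] {A : ValuationSubring Qb} {q N : ℕ} [NeZero N] {ℓ : ℕ}
  {ϖ : OL A q} {z : flN N (constK A q)} {E : Type} [Field E] [Algebra (RatFunc Qb) E]
  {ι : flN N (constK A q) →+* E}

/-- The coordinates of the two charts. -/
def coordR (b : Bool) : RatFunc Qb := bif b then RatFunc.X⁻¹ else RatFunc.X

theorem map_coordB (hz : ι z = algebraMap (RatFunc Qb) E RatFunc.X) (b : Bool) :
    ι (coordB A q z b) = algebraMap (RatFunc Qb) E (coordR b) := by
  cases b
  · exact hz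
  · show ι z⁻¹ = algebraMap (RatFunc Qb) E RatFunc.X⁻¹
    rw [map_inv₀, hz, map_inv₀]

theorem map_cF (hc : ∀ (x : Qb) (hx : x ∈ constL A q),
      ι (toFl (rC (⟨algebraMap Qb ℂ x, x, hx, rfl⟩ : constK A q))) = cst x) (a : OL A q) :
    ι (cF A q N a) = cst (a : Qb) := hc (a : Qb) a.2.2

theorem baseHom_eq (hz : ι z = algebraMap (RatFunc Qb) E RatFunc.X)
    (hc : ∀ (x : Qb) (hx : x ∈ constL A q),
      ι (toFl (rC (⟨algebraMap Qb ℂ x, x, hx, rfl⟩ : constK A q))) = cst x) (b : Bool) :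
    baseHom (E := E) A (constL A q).toSubfield (coordR b) =
      ι.comp (Polynomial.eval₂RingHom (cF A q N) (coordB A q z b)) := by
  refine Polynomial.ringHom_ext (fun a => ?_) ?_
  · simp only [baseHom, Polynomial.coe_eval₂RingHom, Polynomial.eval₂_C, RingHom.comp_apply]
    exact (map_cF hc a).symm
  · simp only [baseHom, Polynomial.coe_eval₂RingHom, Polynomial.eval₂_X, RingHom.comp_apply]
    exact (map_coordB hz b).symm

theorem mem_chartSet_iff (hz : ι z = algebraMap (RatFunc Qb) E RatFunc.X)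
    (hc : ∀ (x : Qb) (hx : x ∈ constL A q),
      ι (toFl (rC (⟨algebraMap Qb ℂ x, x, hx, rfl⟩ : constK A q))) = cst x) (b : Bool)
    (x : flN N (constK A q)) :
    ι x ∈ chartSet A (constL A q).toSubfield ι.fieldRange (coordR b) ↔
      x ∈ chartF A q (coordB A q z b) := by
  show (ι x ∈ ι.fieldRange ∧ _) ↔ _
  rw [baseHom_eq hz hc b]
  constructor
  · rintro ⟨-, P, hP, he⟩
    refine ⟨P, hP, ι.injective ?_⟩
    rw [Polynomial.hom_eval₂, map_zero]
    exact he
  · rintro ⟨P, hP, he⟩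
    refine ⟨⟨x, rfl⟩, P, hP, ?_⟩
    rw [← Polynomial.hom_eval₂, he, map_zero]

theorem isVertF_pull (hz : ι z = algebraMap (RatFunc Qb) E RatFunc.X)
    (hc : ∀ (x : Qb) (hx : x ∈ constL A q),
      ι (toFl (rC (⟨algebraMap Qb ℂ x, x, hx, rfl⟩ : constK A q))) = cst x)
    {W : ValuationSubring E} (hW : IsVertical A (constL A q).toSubfield ϖ W) :
    IsVertF A q ϖ z (W.comap ι) := by
  have hmem : ∀ x, x ∈ W.comap ι ↔ ι x ∈ W := fun x => Iff.rfl
  refine ⟨?_, fun P hP => ?_⟩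
  · rw [valuation_lt_iff_of_mem_iff ι hmem, map_cF hc]
    exact hW.1
  · have h1 : W.valuation (ι (P.eval₂ (cF A q N) z)) = 1 := by
      have h := hW.2 P hP
      rw [show (RatFunc.X : RatFunc Qb) = coordR false from rfl, baseHom_eq hz hc] at h
      exact h
    refine le_antisymm (((W.comap ι).valuation_le_one_iff _).2
      ((W.valuation_le_one_iff _).1 h1.le)) (not_lt.1 fun hlt => ?_)
    exact ((valuation_lt_iff_of_mem_iff ι hmem _).1 hlt).ne h1

/-- The point of the field under a point of the extension. -/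
def comapPt (hz : ι z = algebraMap (RatFunc Qb) E RatFunc.X)
    (hc : ∀ (x : Qb) (hx : x ∈ constL A q),
      ι (toFl (rC (⟨algebraMap Qb ℂ x, x, hx, rfl⟩ : constK A q))) = cst x) (b : Bool) {M : Set E}
    (hM : IsPoint A (constL A q).toSubfield ϖ ι.fieldRange (coordR b) M) : Pt A q z :=
  ⟨b, { carrier := {x | ι (x : flN N (constK A q)) ∈ M}
        zero_mem' := by simpa using hM.zero_mem
        add_mem' := fun {x y} hx hy => by simpa using hM.add_mem _ hx _ hy
        smul_mem' := fun c x hx => by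
          show ι ((c * x : chartF A q (coordB A q z b)) : flN N (constK A q)) ∈ M
          rw [Subring.coe_mul, map_mul]
          exact hM.mul_mem _ ((mem_chartSet_iff hz hc b _).2 c.2) _ hx }⟩

theorem isPtF_comapPt (hz : ι z = algebraMap (RatFunc Qb) E RatFunc.X)
    (hc : ∀ (x : Qb) (hx : x ∈ constL A q),
      ι (toFl (rC (⟨algebraMap Qb ℂ x, x, hx, rfl⟩ : constK A q))) = cst x) (b : Bool) {M : Set E}
    (hM : IsPoint A (constL A q).toSubfield ϖ ι.fieldRange (coordR b) M) :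
    IsPtF ϖ (comapPt hz hc b hM) := by
  refine ⟨Ideal.isMaximal_iff.2 ⟨fun h => hM.one_notMem (by
    have h1 : ι ((1 : chartF A q (coordB A q z b)) : flN N (constK A q)) ∈ M := h
    simpa using h1), fun J x hJ hx hxJ => ?_⟩, ?_⟩
  · obtain ⟨y, hy, hxy⟩ := hM.maximal (ι (x : flN N (constK A q)))
      ((mem_chartSet_iff hz hc b _).2 x.2) hx
    obtain ⟨y', rfl⟩ := hy.1
    set y'' : chartF A q (coordB A q z (comapPt hz hc b hM).1) :=
      ⟨y', (mem_chartSet_iff hz hc b _).1 hy⟩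
    have h1 : x * y'' - 1 ∈ J := hJ (by
      show ι (((x * y'' - 1 : chartF A q (coordB A q z (comapPt hz hc b hM).1)) :
        flN N (constK A q))) ∈ M
      simpa [map_sub, map_mul, y''] using hxy)
    have h2 := J.sub_mem (J.mul_mem_right y'' hxJ) h1
    rwa [sub_sub_cancel] at h2
  · refine ⟨⟨cF A q N ϖ, ?_⟩, ?_, rfl⟩
    · exact cF_mem_ptChart ⟨b, ⊥⟩ ϖ
    · show ι (cF A q N ϖ) ∈ M
      rw [map_cF hc]
      exact hM.pi_mem

theorem natCast_valuation [hq : Fact q.Prime] (hA : A.LiesOverPrime q) {n : ℕ} (hqn : ¬ q ∣ n) :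
    A.valuation (n : Qb) = 1 := FA.CurveRed.valuation_natCast_eq_one A hq.out hA hqn

/-- **Compatible roots give a root.** -/
theorem exists_eq_pow [hq : Fact q.Prime] (hA : A.LiesOverPrime q)
    (hC : ConstHyp A (constL A q).toSubfield ϖ) (hz : Coord A q ℓ z) {n : ℕ} (hn : n ≠ 0)
    (hqn : ¬ q ∣ n) (hζ : ∃ ζ : Qb, ζ ∈ constL A q ∧ IsPrimitiveRoot ζ n)
    {f : flN N (constK A q)} (hf : f ≠ 0)
    {g : ValuationSubring (flN N (constK A q)) → flN N (constK A q)}
    (hg : ∀ V, IsVertF A q ϖ z V → g V ≠ 0 ∧ V.valuation (f / g V ^ n - 1) < 1)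
    (hloc : ∀ p : Pt A q z, IsPtF ϖ p → ∃ π : flN N (constK A q), π ≠ 0 ∧
      (∃ b c : ptChart A q p, b ∉ p.2 ∧ c ∉ p.2 ∧
        f * (c : flN N (constK A q)) = π ^ n * (b : flN N (constK A q))) ∧
      ∃ a : ptChart A q p, a ∉ p.2 ∧ ∀ V, IsVertF A q ϖ z V → Thru p V →
        ∃ b c : ptChart A q p, c ∉ p.2 ∧ b - a * c ∈ p.2 ∧
          V.valuation (g V / π * c - (b : flN N (constK A q))) < 1) :
    ∃ y : flN N (constK A q), f = y ^ n := by
  obtain ⟨E, _, _, _, ι, h, s, hh, hιz, hιc, hF, hs⟩ := exists_embedding hz hn f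
  have hagree : ∀ b : Bool, RootsAgree A (constL A q).toSubfield ϖ ι.fieldRange n (ι f)
      (fun W => ι (g (W.comap ι))) (coordR b) := by
    intro b M hM
    set p := comapPt hιz hιc b hM
    obtain ⟨π, hπ, ⟨b₀, c₀, hb₀, hc₀, he₀⟩, a, ha, hval⟩ := hloc p (isPtF_comapPt hιz hιc b hM)
    have hin : ∀ x : ptChart A q p, ι (x : flN N (constK A q)) ∈
        chartSet A (constL A q).toSubfield ι.fieldRange (coordR b) := fun x =>
      (mem_chartSet_iff hιz hιc b _).2 x.2
    refine ⟨ι π, ⟨π, rfl⟩, ι a, hin a, (map_ne_zero ι).2 hπ, ha,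
      ⟨ι b₀, hin b₀, ι c₀, hin c₀, hb₀, hc₀, by rw [← map_mul, he₀, map_mul, map_pow]⟩, ?_⟩
    intro W hW hT
    have hmem : ∀ x, x ∈ W.comap ι ↔ ι x ∈ W := fun x => Iff.rfl
    have hTp : Thru p (W.comap ι) := fun x hx =>
      hT _ (hin x) ((valuation_lt_iff_of_mem_iff ι hmem _).1 hx)
    obtain ⟨b₁, c₁, hc₁, hbc, hv⟩ := hval _ (isVertF_pull hιz hιc hW) hTp
    refine ⟨ι b₁, hin b₁, ι c₁, hin c₁, hc₁, ?_, ?_⟩
    · have : ι (((b₁ - a * c₁ : ptChart A q p) : flN N (constK A q))) ∈ M := hbc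
      simpa [map_sub, map_mul] using this
    · have h2 := (valuation_lt_iff_of_mem_iff ι hmem _).1 hv
      simpa [map_sub, map_mul, map_div₀] using h2
  have h1 := glueRoots Qb E A (constL A q).toSubfield ϖ hC n (natCast_valuation hA hqn) hζ
    ι.fieldRange s hF hs h (ι f) ⟨f, rfl⟩ ((map_ne_zero ι).2 hf) hh
    (fun W => ι (g (W.comap ι)))
    (fun W hW => by
      obtain ⟨h0, hv⟩ := hg _ (isVertF_pull hιz hιc hW)
      refine ⟨⟨_, rfl⟩, (map_ne_zero ι).2 h0, ?_⟩
      have h2 := (valuation_lt_iff_of_mem_iff ι (fun x => Iff.rfl : ∀ x, x ∈ W.comap ι ↔ ι x ∈ W) _).1 hv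
      simpa [map_sub, map_div₀] using h2)
    (fun W W' _ _ hWW => by
      rw [show W.comap ι = W'.comap ι from SetLike.ext fun x => hWW _ ⟨x, rfl⟩])
    (hagree false) (hagree true)
  obtain ⟨y, hy⟩ := h1
  exact ⟨y, ι.injective (by rw [map_pow, hy, hh])⟩

end FA.Carayol

end
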