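import Fermat.Agent.Carayol.Assembly.Glued

/-!
# Fixed classes with vanishing traces: the assembly

From the components and the points of the special fibre of level `q m`, a class fixed by inertia
whose traces vanish is killed by a constant.
-/

set_option autoImplicit false
set_option linter.unusedSectionVars false
set_option linter.style.haveILetI false
set_option synthInstance.maxHeartbeats 200000
set_option maxHeartbeats 800000

noncomputable section

namespace FA.Carayol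

open CongruenceSubgroup FA.Level FA.JTorsion FA.Mazur.Wp
open scoped MatrixGroups

local notation "Qb" => AlgebraicClosure ℚ

/-- **The assembly.** -/
theorem fixedVanish_of [Algebra Qb ℂ] {q M' m : ℕ} [Fact q.Prime] [NeZero M'] [NeZero m]
    [NeZero (q * m)] [NeZero (q * q * M')] (hqm : ¬ q ∣ m) (hM : M' ∣ m) (h2 : 2 ∣ q * m)
    (h4 : 4 ≤ q * m) (ℓ : ℕ) (hℓ : ℓ ∣ m) (hℓ2 : q ≠ 2 → 2 ∣ ℓ) (A : ValuationSubring Qb)
    (hA : A.LiesOverPrime q) (z : flN (q * m) (constK A q)) (hz : Coord A q ℓ z)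
    (hV : VertHolds A q (N := q * m)) (ϖ : baseO A (constL A q).toSubfield)
    (hϖ : ConstHyp A (constL A q).toSubfield ϖ) (hP : PtsHolds ϖ z m) :
    ∃ C : ℕ, C ≠ 0 ∧ ∀ (n : ℕ) [NeZero n], ¬ q ∣ n →
      ∀ x : tors (lvlGamma0 (q * q * M')) Qb n,
        (∀ σ ∈ A.inertiaSubgroupIn ℚ,
          σ • (x.1 : ModularCurve.JZero (q * q * M')) = x.1) →
        TracesVanish (fun γ => kumFun x γ) → C • x = 0 := by
  obtain ⟨W₀, hV₀⟩ := hV ϖ hϖ ℓ z hz
  obtain ⟨C, hC, hfun⟩ := exists_normFun hqm hM h2 h4 hA hϖ hV₀.infty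
  have he0 : q * q - 1 ≠ 0 := by
    have h := (Fact.out : q.Prime).two_le
    have : 4 ≤ q * q := Nat.mul_le_mul h h
    omega
  refine ⟨C * ((q * q - 1) * (q * q - 1)), mul_ne_zero hC (mul_ne_zero he0 he0),
    fun n _ hqn x hx htr => ?_⟩
  have hn : n ≠ 0 := NeZero.ne n
  obtain ⟨f, hf, hv, hdet⟩ := hfun n hqn x hx htr
  refine hdet _ ?_
  set e := q * q - 1 with he
  -- roots along the components
  have hpow : ∀ g ∈ Gamma ℓ, IsPow W₀ n (flAct g (f ^ e)) := fun g hg =>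
    isPow_translate hqm hM h2 h4 hA hϖ hV₀.infty hℓ hℓ2 hn hqn hf hv hg
  obtain ⟨ζ, hζ⟩ := exists_primitive_OL hA (NeZero.ne m) hqm hn hqn
  obtain ⟨g, hg, hloc⟩ := exists_compatible_roots hϖ hV₀ hP hℓ (cast_natCast_ne_zero hqm hM) hM hn
    hζ (hf.pow e) hpow
  rw [← he, ← pow_mul] at hg hloc
  refine exists_eq_pow hA hϖ hz hn hqn
    ((constHolds q A hA m (NeZero.ne m) hqm).roots_prime n hn hqn) (pow_ne_zero _ hf.ne_zero) hg
    fun p hp => ?_
  obtain ⟨π, hπ, hbc, r, hr, hval⟩ := hloc p hp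
  refine ⟨π, hπ, hbc, cChart p r, fun h => hr ((cChart_mem_iff hϖ hp (hP.1 p hp) r).1 h),
    fun V hV' hT => ?_⟩
  obtain ⟨⟨-, a, c, hc, hac⟩, hb⟩ := hval V hV' hT
  refine ⟨a, c, hc, ?_, hac⟩
  rw [brVal_eq hϖ hp (hP.1 p hp) hV' hT hc hac,
    div_eq_iff (fun h0 => hc ((ptRes_eq_zero hϖ hp (hP.1 p hp)).1 h0))] at hb
  rw [← ptRes_eq_zero hϖ hp (hP.1 p hp), map_sub, map_mul, ptRes_cChart, hb, sub_self]

end FA.Carayol

end
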