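import Fermat.Agent.Carayol.Assembly.Infinity
import Fermat.Agent.Carayol.Front.Main

/-!
# The normalised function of a class
-/

set_option autoImplicit false
set_option linter.unusedSectionVars false
set_option linter.style.haveILetI false

noncomputable section

namespace FA.Carayol

open UpperHalfPlane hiding I
open CongruenceSubgroup HahnSeries ModularCurve FA.Level FA.ModField FA.JTorsion FA.Mazur.Wp
open scoped MatrixGroups

local notation "Qb" => AlgebraicClosure ℚ

/-- Valuation rings matched by a homomorphism have matching small elements. -/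
theorem valuation_lt_iff_of_mem_iff {F F' : Type*} [Field F] [Field F'] (φ : F →+* F')
    {W : ValuationSubring F} {W' : ValuationSubring F'} (h : ∀ x, x ∈ W ↔ φ x ∈ W') (x : F) :
    W.valuation x < 1 ↔ W'.valuation (φ x) < 1 := by
  rw [← ValuationSubring.mem_nonunits_iff, ValuationSubring.mem_nonunits_iff_or,
    ← ValuationSubring.mem_nonunits_iff, ValuationSubring.mem_nonunits_iff_or, ← map_inv₀,
    map_eq_zero_iff _ φ.injective, h]

/-- Powers near one transport along matched valuation rings. -/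
theorem IsPow.of_mem_iff {F F' : Type*} [Field F] [Field F'] {φ : F ≃+* F'}
    {W : ValuationSubring F} {W' : ValuationSubring F'} (h : ∀ x, x ∈ W ↔ φ x ∈ W') {n : ℕ}
    {x : F} (hx : IsPow W' n (φ x)) : IsPow W n x := by
  obtain ⟨y, hy⟩ := hx
  refine ⟨φ.symm y, ?_⟩
  rw [valuation_lt_iff_of_mem_iff φ.toRingHom h]
  simpa [map_sub, map_div₀, map_pow] using hy

/-- A product over residues modulo `q` along a multiplicative permutation. -/
theorem prod_periodic {q : ℕ} [hq : Fact q.Prime] {M : Type*} [CommMonoid M] (F : ℤ → M)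
    (hF : ∀ a b : ℤ, (a : ZMod q) = b → F a = F b) {c : ZMod q} (hc : c ≠ 0) (κ : ℕ → ℤ)
    (hκ : ∀ b, (κ b : ZMod q) = c * b) :
    ∏ b ∈ Finset.range q, F (κ b) = ∏ b ∈ Finset.range q, F b := by
  refine Finset.prod_nbij (fun b => ((κ b : ZMod q)).val) (fun b _ => Finset.mem_range.2 (ZMod.val_lt _))
    (fun a ha b hb h => ?_) (fun b hb => ?_) fun b _ => ?_
  · have h1 := ZMod.val_injective q h
    rw [hκ, hκ] at h1
    have h2 := congrArg ZMod.val (mul_left_cancel₀ hc h1)
    rwa [ZMod.val_natCast_of_lt (Finset.mem_range.1 ha),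
      ZMod.val_natCast_of_lt (Finset.mem_range.1 hb)] at h2
  · refine ⟨(c⁻¹ * (b : ZMod q)).val, Finset.mem_range.2 (ZMod.val_lt _), ?_⟩
    simp only [hκ, ZMod.natCast_val, ZMod.cast_id, mul_inv_cancel_left₀ hc,
      ZMod.val_natCast_of_lt (Finset.mem_range.1 hb)]
  · exact hF _ _ (by simp [ZMod.natCast_val])

variable [Algebra Qb ℂ] {A : ValuationSubring Qb} {q N : ℕ} [NeZero N]

/-- Powers of constants. -/
theorem toFl_rC_zpow (a : constK A q) (j : ℤ) :
    toFl (rC (N := N) (a ^ j)) = toFl (rC a) ^ j :=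
  map_zpow₀ ((toFl (N := N)).comp (rC (N := N) (K := constK A q))) a j

variable (A q) in
/-- The properties of the function of a class. -/
structure NormFun (M' n : ℕ) (f : flN N (constK A q)) : Prop where
  ne_zero : f ≠ 0
  inv : ∀ γ ∈ gsp q M', flAct γ f = f
  coeff : ∀ i, (((ser f).coeff i : constK A q) : ℂ) ∈ constK0 A
  horiz : ∀ V : ValuationSubring (flN N (constK A q)), (∀ c : constK A q, toFl (rC c) ∈ V) →
    ∃ g : flN N (constK A q), g ≠ 0 ∧ V.valuation f = V.valuation g ^ n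
  up : ∃ c : constK A q, c ≠ 0 ∧ ∃ y : flN N (constK A q),
    ∏ b ∈ Finset.range q, flAct (upU b) f = toFl (rC c) * y ^ n
  low : ∃ c : constK A q, c ≠ 0 ∧ ∃ y : flN N (constK A q),
    ∏ b ∈ Finset.range q, flAct (lowU (b * M')) f = toFl (rC c) * y ^ n

theorem coeff_mem_iff {x : flN N (constK A q)} (h : constK0 A ≤ constK A q) :
    (∀ i, (((ser x).coeff i : constK A q) : ℂ) ∈ constK0 A) ↔
      ser x ∈ (coeffMap (Subfield.inclusion h)).fieldRange := by
  refine ⟨fun hx => ⟨⟨fun i => ⟨_, hx i⟩, (ser x).isPWO_support.mono fun i hi h0 => hi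
    (Subtype.ext (show (((ser x).coeff i : constK A q) : ℂ) = 0 by rw [h0]; rfl))⟩,
    HahnSeries.ext (funext fun i => Subtype.ext rfl)⟩, ?_⟩
  rintro ⟨s, hs⟩ i
  rw [← hs, coeffMap_coeff]
  exact (s.coeff i).2

theorem constK0_le : constK0 A ≤ constK A q := fun _ ⟨z, hz, hzc⟩ => ⟨z, (le_sup_left : FA.LocalDef.kur A ≤ constL A q) hz, hzc⟩

variable {M' n : ℕ} {f : flN N (constK A q)}

theorem NormFun.pow (hf : NormFun A q M' n f) (e : ℕ) : NormFun A q M' n (f ^ e) where
  ne_zero := pow_ne_zero e hf.ne_zero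
  inv γ hγ := by rw [map_pow, hf.inv γ hγ]
  coeff := (coeff_mem_iff constK0_le).2 (by
    rw [map_pow]; exact pow_mem ((coeff_mem_iff constK0_le).1 hf.coeff) e)
  horiz V hV := by
    obtain ⟨g, hg, he⟩ := hf.horiz V hV
    exact ⟨g ^ e, pow_ne_zero e hg, by rw [map_pow, he, map_pow, ← pow_mul, ← pow_mul, mul_comm]⟩
  up := by
    obtain ⟨c, hc, y, hy⟩ := hf.up
    refine ⟨c ^ e, pow_ne_zero e hc, y ^ e, ?_⟩
    simp only [map_pow, Finset.prod_pow, hy, mul_pow, ← pow_mul]
    rw [mul_comm n e]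
  low := by
    obtain ⟨c, hc, y, hy⟩ := hf.low
    refine ⟨c ^ e, pow_ne_zero e hc, y ^ e, ?_⟩
    simp only [map_pow, Finset.prod_pow, hy, mul_pow, ← pow_mul]
    rw [mul_comm n e]

/-- Periodicity of translates by upper unipotents. -/
theorem NormFun.upU_congr (hf : NormFun A q M' n f) {a b : ℤ} (h : (a : ZMod q) = b) :
    flAct (upU a) f = flAct (upU b) f := by
  obtain ⟨t, ht⟩ := (ZMod.intCast_eq_intCast_iff_dvd_sub b a q).1 h.symm
  rw [show upU a = upU (q * t) * upU b from Subtype.ext (by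
    rw [Matrix.SpecialLinearGroup.coe_mul, upU, upU, upU, Matrix.mul_fin_two,
      show a = q * t + b by omega]
    simp [add_comm]), flAct_mul, hf.inv]
  exact mem_gsp.2 ⟨⟨t, rfl⟩, dvd_zero _⟩

/-- Periodicity of translates by lower unipotents. -/
theorem NormFun.lowU_congr (hf : NormFun A q M' n f) {a b : ℤ} (h : (a : ZMod q) = b) :
    flAct (lowU (a * M')) f = flAct (lowU (b * M')) f := by
  obtain ⟨t, ht⟩ := (ZMod.intCast_eq_intCast_iff_dvd_sub b a q).1 h.symm
  rw [show lowU (a * M') = lowU (q * t * M') * lowU (b * M') from Subtype.ext (by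
    rw [Matrix.SpecialLinearGroup.coe_mul, lowU, lowU, lowU, Matrix.mul_fin_two,
      show a = q * t + b by omega]
    simp [add_mul]), flAct_mul, hf.inv]
  exact mem_gsp.2 ⟨dvd_zero _, ⟨t, by simp [lowU]; ring⟩⟩

variable [hq : Fact q.Prime]

/-- The product of translates by `upU k`, `k ≡ b`. -/
theorem NormFun.prod_up (hf : NormFun A q M' n f) {c : ZMod q} (hc : c ≠ 0) (κ : ℕ → ℤ)
    (hκ : ∀ b, (κ b : ZMod q) = c * b) :
    ∏ b ∈ Finset.range q, flAct (upU (κ b)) f = ∏ b ∈ Finset.range q, flAct (upU b) f :=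
  prod_periodic (fun a => flAct (upU a) f) (fun _ _ h => hf.upU_congr h) hc κ hκ

/-- The product of translates by `lowU k`, `M' ∣ k`. -/
theorem NormFun.prod_low (hf : NormFun A q M' n f) (hM' : (M' : ZMod q) ≠ 0) {c : ZMod q}
    (hc : c ≠ 0) (κ : ℕ → ℤ) (hκ : ∀ b, (κ b : ZMod q) = c * b) (hκd : ∀ b, (M' : ℤ) ∣ κ b) :
    ∏ b ∈ Finset.range q, flAct (lowU (κ b)) f =
      ∏ b ∈ Finset.range q, flAct (lowU (b * M')) f := by
  choose l hl using hκd
  rw [← prod_periodic (fun a => flAct (lowU (a * M')) f) (fun _ _ h => hf.lowU_congr h)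
    (mul_ne_zero (inv_ne_zero hM') hc) l fun b => by
      rw [mul_assoc, ← hκ, hl, Int.cast_mul, Int.cast_natCast, inv_mul_cancel_left₀ hM']]
  exact Finset.prod_congr rfl fun b _ => by rw [hl, mul_comm]

variable {ϖ : OL A q} {W₀ : ValuationSubring (flN N (constK A q))}

/-- A constant times a power, of value a power, is a unit constant times a power. -/
theorem IsInfty.exists_unit_trace (hW : IsInfty A q ϖ W₀)
    (hC : ConstHyp A (constL A q).toSubfield ϖ) {c : constK A q} (hc : c ≠ 0)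
    {y Y : flN N (constK A q)} (hn : n ≠ 0)
    (hv : W₀.valuation (toFl (rC c) * y ^ n) = W₀.valuation Y ^ n) (hY : Y ≠ 0) :
    ∃ u : OL A q, IsUnit u ∧ ∃ i : ℤ, toFl (rC c) = cF A q N u * (cF A q N ϖ ^ i) ^ n := by
  have hc0 : toFl (rC (N := N) c) ≠ 0 :=
    (map_ne_zero_iff _ toFl_injective).2 ((map_ne_zero_iff _ (rC (N := N)).injective).2 hc)
  have hy0 : y ≠ 0 := fun h => by
    rw [h, zero_pow hn, mul_zero, map_zero, eq_comm, pow_eq_zero_iff hn] at hv
    exact hY ((map_eq_zero _).1 hv)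
  obtain ⟨u, j, hu, hcu⟩ := exists_const_decomp hC hc
  have hce : toFl (rC (N := N) c) = cF A q N u * cF A q N ϖ ^ j := by
    rw [hcu, map_mul, map_mul, toFl_rC_zpow]
    rfl
  obtain ⟨i, x', hx', hYy⟩ := hW.exists_unit_part hC (div_ne_zero hY hy0)
  have hϖ1 : W₀.valuation (cF A q N ϖ) < 1 := (hW.cF_facts ϖ).2.2 (resO_uniformizer hC)
  have hϖ0 : W₀.valuation (cF A q N ϖ) ≠ 0 :=
    (Valuation.ne_zero_iff _).2 ((map_ne_zero_iff _ cF_inj).2 hC.irreducible.ne_zero)
  have e : W₀.valuation (cF A q N ϖ) ^ j = W₀.valuation (cF A q N ϖ) ^ (i * n) := by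
    have h1 : W₀.valuation (toFl (rC (N := N) c)) = W₀.valuation (Y / y) ^ n := by
      rw [map_div₀, div_pow, eq_div_iff (pow_ne_zero n ((Valuation.ne_zero_iff _).2 hy0)),
        ← map_pow, ← map_mul, hv]
    rw [hce, hYy, map_mul, map_mul, hW.cF_unit hu, one_mul, map_zpow₀, map_zpow₀, hx', mul_one,
      ← zpow_natCast, ← zpow_mul] at h1
    exact h1
  have hji : j = i * n := by
    have := zpow_right_injective₀ (zero_lt_iff.2 hϖ0) hϖ1.ne e
    exact this
  exact ⟨u, hu, i, by rw [hce, hji, zpow_mul, zpow_natCast]⟩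

/-- The normalised function. -/
theorem exists_normFun {m : ℕ} [NeZero m] [NeZero (q * m)] [NeZero M'] [NeZero (q * q * M')]
    (hqm : ¬ q ∣ m) (hM : M' ∣ m) (h2 : 2 ∣ q * m) (h4 : 4 ≤ q * m) (hA : A.LiesOverPrime q)
    (hC : ConstHyp A (constL A q).toSubfield ϖ)
    {W₀ : ValuationSubring (flN (q * m) (constK A q))} (hW : IsInfty A q ϖ W₀) :
    ∃ C : ℕ, C ≠ 0 ∧ ∀ (n : ℕ) [NeZero n], ¬ q ∣ n →
      ∀ x : tors (lvlGamma0 (q * q * M')) Qb n,
        (∀ σ ∈ A.inertiaSubgroupIn ℚ,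
          σ • (x.1 : ModularCurve.JZero (q * q * M')) = x.1) →
        TracesVanish (fun γ => kumFun x γ) →
        ∃ f : flN (q * m) (constK A q), NormFun A q M' n f ∧ W₀.valuation f = 1 ∧
          ∀ e : ℕ, (∃ y : flN (q * m) (constK A q), f ^ e = y ^ n) → (C * e) • x = 0 := by
  obtain ⟨C₀, hC₀, hF⟩ := frontEndHolds q M' m hqm hM h2 h4 A hA
  have hq1 : q - 1 ≠ 0 := by have := hq.out.two_le; omega
  refine ⟨C₀ * (q - 1), mul_ne_zero hC₀ hq1, fun n _ hqn x hx htr => ?_⟩
  obtain ⟨f, hf0, hfinv, hfc, hfh, ⟨cu, hcu, yu, hu⟩, ⟨cl, hcl, yl, hl⟩, hdet⟩ := hF n hqn x hx htr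
  have hf : NormFun A q M' n f := by
    refine ⟨hf0, fun γ hγ => Subtype.ext (hfinv γ hγ), hfc, hfh, ⟨cu, hcu, yu, Subtype.ext ?_⟩,
      ⟨cl, hcl, yl, Subtype.ext ?_⟩⟩
    · show (flN (q * m) (constK A q)).subtype _ = _
      rw [map_prod]
      exact hu
    · show (flN (q * m) (constK A q)).subtype _ = _
      rw [map_prod]
      exact hl
  -- `ϖ ^ (q - 1)` is `q` times a unit
  obtain ⟨ϖ', hϖ', hC'⟩ := (constHolds q A hA m (NeZero.ne m) hqm).const
  haveI := hC.dvr
  obtain ⟨w, hw⟩ : Associated ϖ ϖ' :=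
    IsDiscreteValuationRing.associated_of_irreducible _ hC.irreducible hC'.irreducible
  have hvϖ : A.valuation (ϖ : Qb) ^ (q - 1) = A.valuation (q : Qb) := by
    rw [← hϖ', ← hw, Subring.coe_mul, map_mul,
      show A.valuation ((w : OL A q) : Qb) = 1 from le_antisymm ((A.valuation_le_one_iff _).2
        (w : OL A q).2.1) (not_lt.1 fun h => resO_ne_of_unit w.isUnit ((resO_eq_zero_iff _).2 h)),
      mul_one]
  have hq0 : (q : Qb) ≠ 0 := Nat.cast_ne_zero.2 hq.out.ne_zero
  have hv1 : A.valuation ((ϖ : Qb) ^ (q - 1) / (q : Qb)) = 1 := by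
    rw [map_div₀, map_pow, hvϖ, div_self ((Valuation.ne_zero_iff _).2 hq0)]
  set w₁ : OL A q := ⟨_, (A.valuation_le_one_iff _).1 hv1.le,
    (constL A q).toSubfield.div_mem ((constL A q).toSubfield.pow_mem ϖ.2.2 _)
      (natCast_mem _ q)⟩
  have hw₁ : ϖ ^ (q - 1) = (q : OL A q) * w₁ := Subtype.ext (by
    rw [Subring.coe_mul, Subring.coe_natCast, Subring.coe_pow]
    exact (mul_div_cancel₀ _ hq0).symm)
  have hw₁u : IsUnit w₁ := isUnit_of_resO fun h => ((resO_eq_zero_iff w₁).1 h).ne hv1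
  have hvq : W₀.valuation (q : flN (q * m) (constK A q)) =
      W₀.valuation (cF A q (q * m) ϖ) ^ (q - 1) := by
    rw [← map_pow, ← map_pow, hw₁, map_mul (cF A q (q * m)), map_natCast (cF A q (q * m)), map_mul,
      hW.cF_unit hw₁u, mul_one]
  obtain ⟨j, x', hx', hfj⟩ := hW.exists_unit_part hC hf0
  have hqF : (q : flN (q * m) (constK A q)) ≠ 0 := by
    rw [← map_natCast (cF A q (q * m)), map_ne_zero_iff _ cF_inj]
    exact fun h => hq0 (by simpa using congrArg Subtype.val h)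
  set s : flN (q * m) (constK A q) := ((q : flN (q * m) (constK A q)) ^ j)⁻¹
  have hqK : (q : flN (q * m) (constK A q)) = toFl (rC (q : constK A q)) := by
    rw [map_natCast, map_natCast]
  have hqK0 : (q : constK A q) ≠ 0 := fun h => hqF (by rw [hqK, h, map_zero, map_zero])
  have hs : s = toFl (rC ((q : constK A q) ^ (-j))) := by
    rw [show s = (q : flN (q * m) (constK A q)) ^ (-j) from (zpow_neg _ j).symm, hqK]
    exact (toFl_rC_zpow _ _).symm
  have hs0 : s ≠ 0 := inv_ne_zero (zpow_ne_zero _ hqF)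
  refine ⟨f ^ (q - 1) * s, ?_, ?_, ?_⟩
  · have h1 := hf.pow (q - 1)
    have hfix : ∀ g, flAct g s = s := fun g => by
      rw [hs, flAct_toFl, rAct_rC]
    refine ⟨mul_ne_zero h1.ne_zero hs0, fun γ hγ => by rw [map_mul, h1.inv γ hγ, hfix], ?_, ?_,
      ?_, ?_⟩
    · refine (coeff_mem_iff constK0_le).2 ?_
      rw [map_mul]
      refine mul_mem ((coeff_mem_iff constK0_le).1 h1.coeff) ?_
      simp only [s, map_inv₀, map_zpow₀, map_natCast]
      exact inv_mem (zpow_mem (natCast_mem _ q) j)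
    · intro V hV
      obtain ⟨g, hg, he⟩ := h1.horiz V hV
      refine ⟨g, hg, ?_⟩
      rw [map_mul, he]
      have hsv : V.valuation s = 1 := by
        refine le_antisymm ((V.valuation_le_one_iff _).2 (hs ▸ hV _)) (not_lt.1 fun hlt => ?_)
        rw [← ValuationSubring.mem_nonunits_iff, ValuationSubring.mem_nonunits_iff_or] at hlt
        refine hlt.elim hs0 fun h => h ?_
        rw [hs, ← zpow_neg_one, ← toFl_rC_zpow]
        exact hV _
      rw [hsv, mul_one]
    · obtain ⟨c, hc, y, hy⟩ := h1.up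
      refine ⟨c * ((q : constK A q) ^ (-j)) ^ q, mul_ne_zero hc
        (pow_ne_zero _ (zpow_ne_zero _ hqK0)), y, ?_⟩
      rw [Finset.prod_congr rfl fun b _ => map_mul (flAct _) (f ^ (q - 1)) s,
        Finset.prod_mul_distrib, hy, Finset.prod_congr rfl fun b _ => hfix _, Finset.prod_const,
        Finset.card_range, hs, map_mul, map_mul, map_pow, map_pow]
      ring
    · obtain ⟨c, hc, y, hy⟩ := h1.low
      refine ⟨c * ((q : constK A q) ^ (-j)) ^ q, mul_ne_zero hc
        (pow_ne_zero _ (zpow_ne_zero _ hqK0)), y, ?_⟩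
      rw [Finset.prod_congr rfl fun b _ => map_mul (flAct _) (f ^ (q - 1)) s,
        Finset.prod_mul_distrib, hy, Finset.prod_congr rfl fun b _ => hfix _, Finset.prod_const,
        Finset.card_range, hs, map_mul, map_mul, map_pow, map_pow]
      ring
  · rw [map_mul, map_pow, map_inv₀, map_zpow₀, hvq, hfj, map_mul, map_zpow₀, hx', mul_one]
    rw [← zpow_natCast, ← zpow_mul, ← zpow_natCast, ← zpow_mul, mul_comm j,
      mul_inv_cancel₀ (zpow_ne_zero _ ((Valuation.ne_zero_iff _).2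
        ((map_ne_zero_iff _ cF_inj).2 hC.irreducible.ne_zero)))]
  · rintro e ⟨y, hy⟩
    have h1 := hdet ((q - 1) * e) ⟨(((q : constK A q) ^ (j * e)) : constK A q), y, ?_⟩
    · rwa [← mul_assoc] at h1
    · have h2 : f ^ ((q - 1) * e) = toFl (rC ((q : constK A q) ^ (j * e))) * y ^ n := by
        rw [← hy, mul_pow, ← pow_mul, show toFl (rC ((q : constK A q) ^ (j * e))) =
            (q : flN (q * m) (constK A q)) ^ (j * e) by
          rw [hqK]; exact toFl_rC_zpow _ _,
          mul_left_comm, show s ^ e = ((q : flN (q * m) (constK A q)) ^ (j * e))⁻¹ by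
            simp only [s]; rw [zpow_mul, zpow_natCast, inv_pow],
          mul_inv_cancel₀ (zpow_ne_zero _ hqF), mul_one]
      have h3 := congrArg (fun w : flN (q * m) (constK A q) => (w : Mer)) h2
      exact h3

end FA.Carayol

end
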